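import Fermat.Agent.FlatJ0.Ramif.Jump
import Mathlib.Algebra.Module.PID
import Mathlib.LinearAlgebra.AnnihilatingPolynomial
import Mathlib.Algebra.Module.ZMod

/-!
# A single-jump group is generated by one element and Frobenius

If `theta` embeds `K / N` in the residue field, conjugation by Frobenius acts as `x ↦ a x ^ p`,
so `K / N` is a cyclic module over `𝔽_p[Frobenius]`.
-/

noncomputable section

open Polynomial

namespace Fermat.Agent.FlatJ0

open EllLocal (resFun kummerRes)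

/-- A finite group embedded in a field of characteristic `p` with `T` acting as `x ↦ a x ^ p` is
cyclic over `𝔽_p[T]`. -/
theorem exists_cyclic_aeval {F : Type*} [Field F] {p : ℕ} [hp : Fact p.Prime] {M : Type*}
    [AddCommGroup M] [Module (ZMod p) M] [Finite M] (ι : M →+ F) (hι : Function.Injective ι)
    {a : F} (ha : a ≠ 0) (T : Module.End (ZMod p) M) (hT : ∀ x, ι (T x) = a * ι x ^ p) :
    ∃ x₀ : M, ∀ S : AddSubgroup F, ι x₀ ∈ S → (∀ x : M, ι x ∈ S → a * ι x ^ p ∈ S) →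
      ∀ x : M, ι x ∈ S := by
  classical
  have : Module.Finite (ZMod p) M := inferInstance
  obtain ⟨y, hy⟩ :=
    Module.exists_ker_toSpanSingleton_eq_annihilator (R := (ZMod p)[X]) (M := Module.AEval' T)
  obtain ⟨x₀, rfl⟩ := (Module.AEval'.of T).surjective y
  rw [← span_minpoly_eq_annihilator] at hy
  set P := minpoly (ZMod p) T with hP
  have hint : IsIntegral (ZMod p) T := Algebra.IsIntegral.isIntegral T
  set r := P.natDegree with hr
  have hzero : ∀ Q : (ZMod p)[X], aeval T Q x₀ = 0 → P ∣ Q := fun Q hQ => by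
    rw [← Ideal.mem_span_singleton, ← hy, LinearMap.mem_ker, LinearMap.toSpanSingleton_apply,
      ← Module.AEval.of_aeval_smul]
    exact (Module.AEval'.of T).map_eq_zero_iff.mpr hQ
  let f : degreeLT (ZMod p) r →ₗ[ZMod p] M :=
    (LinearMap.applyₗ x₀ ∘ₗ (aeval T).toLinearMap) ∘ₗ (degreeLT (ZMod p) r).subtype
  have hinj : Function.Injective f := by
    refine (injective_iff_map_eq_zero f).mpr fun Q hQ => Subtype.ext ?_
    by_contra h0
    have h1 := Polynomial.natDegree_le_of_dvd (hzero Q.1 hQ) h0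
    have h2 : (Q.1).natDegree < r :=
      (natDegree_lt_iff_degree_lt h0).mpr (mem_degreeLT.mp Q.2)
    omega
  -- the minimal polynomial is an additive polynomial of degree `p ^ r`
  have hTpow : ∀ i : ℕ, ∃ α : F, α ≠ 0 ∧ ∀ x : M, ι ((T ^ i) x) = α * ι x ^ p ^ i := by
    intro i
    induction i with
    | zero => exact ⟨1, one_ne_zero, fun x => by simp⟩
    | succ i ih =>
      obtain ⟨α, hα, hαx⟩ := ih
      refine ⟨a * α ^ p, mul_ne_zero ha (pow_ne_zero p hα), fun x => ?_⟩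
      rw [pow_succ' T, Module.End.mul_apply, hT, hαx, mul_pow, ← pow_mul, ← pow_succ, mul_assoc]
  choose α hα hαx using hTpow
  let G : Polynomial F :=
    ∑ i ∈ Finset.range (r + 1), C (((P.coeff i).val : F) * α i) * X ^ p ^ i
  have hG0 : G ≠ 0 := by
    intro e
    have := congrArg (fun g => g.coeff (p ^ r)) e
    simp only [G, finsetSum_coeff, coeff_C_mul, coeff_X_pow, coeff_zero, mul_ite, mul_one,
      mul_zero] at this
    rw [Finset.sum_eq_single r (fun i _ hi => if_neg fun h => hi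
        ((Nat.pow_right_injective hp.out.two_le h).symm))
      (fun h => absurd (Finset.mem_range.mpr r.lt_succ_self) h), if_pos rfl,
      (minpoly.monic hint).coeff_natDegree, ZMod.val_one] at this
    exact hα r (by simpa using this)
  have hGdeg : G.natDegree ≤ p ^ r :=
    natDegree_sum_le_of_forall_le _ _ fun i hi => (natDegree_C_mul_X_pow_le _ _).trans
      (Nat.pow_le_pow_right hp.out.pos (Nat.lt_succ_iff.mp (Finset.mem_range.mp hi)))
  have hroot : ∀ x : M, ι x ∈ G.roots := fun x => by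
    have h1 : aeval T P = 0 := minpoly.aeval _ _
    have h2 : ι (aeval T P x) = 0 := by rw [h1]; exact map_zero ι
    rw [aeval_eq_sum_range, LinearMap.sum_apply, map_sum] at h2
    rw [mem_roots hG0, IsRoot, eval_finsetSum, ← h2]
    refine Finset.sum_congr rfl fun i _ => ?_
    rw [eval_mul, eval_C, eval_pow, eval_X, LinearMap.smul_apply]
    conv_rhs => rw [← ZMod.natCast_zmod_val (P.coeff i), Nat.cast_smul_eq_nsmul, map_nsmul,
      nsmul_eq_mul, hαx]
    ring
  have hup : Nat.card M ≤ p ^ r := by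
    have : Nat.card M ≤ Nat.card (G.roots.toFinset) :=
      Nat.card_le_card_of_injective
        (fun x => (⟨ι x, Multiset.mem_toFinset.mpr (hroot x)⟩ : G.roots.toFinset))
        fun x y h => hι (congrArg Subtype.val h)
    rw [Nat.card_eq_fintype_card (α := G.roots.toFinset), Fintype.card_coe] at this
    exact this.trans ((Multiset.toFinset_card_le _).trans ((card_roots' G).trans hGdeg))
  have hcard : Nat.card (degreeLT (ZMod p) r) = p ^ r := by
    rw [Nat.card_congr (degreeLTEquiv (ZMod p) r).toEquiv, Nat.card_fun, Nat.card_zmod,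
      Nat.card_fin]
  have : Finite (degreeLT (ZMod p) r) := Finite.of_injective _ hinj
  refine ⟨x₀, fun S hS hST x => ?_⟩
  obtain ⟨Q, rfl⟩ := (hinj.bijective_of_nat_card_le (hcard ▸ hup)).2 x
  have hpow : ∀ i : ℕ, ι ((T ^ i) x₀) ∈ S := by
    intro i
    induction i with
    | zero => simpa using hS
    | succ i ih => rw [pow_succ', Module.End.mul_apply, hT]; exact hST _ ih
  show ι (aeval T Q.1 x₀) ∈ S
  rw [aeval_eq_sum_range, LinearMap.sum_apply, map_sum]
  refine sum_mem fun i _ => ?_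
  rw [LinearMap.smul_apply, ← ZMod.natCast_zmod_val (Q.1.coeff i), Nat.cast_smul_eq_nsmul,
    map_nsmul]
  exact nsmul_mem (hpow i) _

/-- A finite subgroup of a field of characteristic `p` stable under `x ↦ a x ^ p` is the span of
the orbit of one element. -/
theorem exists_orbit_generator {F : Type*} [Field F] {p : ℕ} [hp : Fact p.Prime] [CharP F p]
    {a : F} (ha : a ≠ 0) (Θ : AddSubgroup F) (hfin : (Θ : Set F).Finite)
    (hT : ∀ x ∈ Θ, a * x ^ p ∈ Θ) :
    ∃ x₀ ∈ Θ, ∀ S : AddSubgroup F, x₀ ∈ S → (∀ x ∈ S, x ∈ Θ → a * x ^ p ∈ S) → Θ ≤ S := by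
  classical
  have : Finite Θ := hfin.to_subtype
  let _ : Module (ZMod p) Θ := AddCommGroup.zmodModule fun x => Subtype.ext (by
    rw [AddSubmonoidClass.coe_nsmul, nsmul_eq_mul, CharP.cast_eq_zero, zero_mul]
    rfl)
  let T₀ : Θ →+ Θ :=
    { toFun := fun x => ⟨a * (x : F) ^ p, hT x x.2⟩
      map_zero' := Subtype.ext (by simp [hp.out.ne_zero])
      map_add' := fun x y => Subtype.ext (by simp [add_pow_char, mul_add]) }
  obtain ⟨x₀, hgen⟩ :=
    exists_cyclic_aeval Θ.subtype Subtype.val_injective ha (T₀.toZModLinearMap p) fun _ => rfl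
  exact ⟨x₀, x₀.2, fun S hS hST x hx => hgen S hS (fun y hy => hST _ hy y.2) ⟨x, hx⟩⟩

local notation "Ω" => AlgebraicClosure ℚ
local notation "G_ℚ" => (AlgebraicClosure ℚ) ≃ₐ[ℚ] (AlgebraicClosure ℚ)

variable {A : ValuationSubring Ω} {p : ℕ}

/-- A generator of a single-jump group under Frobenius. -/
theorem Unif.exists_frobenius_generator {N : Subgroup G_ℚ} (u : Unif A p N) {l : ℕ} (hl : 1 ≤ l)
    (K : Subgroup G_ℚ) (hKI : K ≤ A.inertiaSubgroupIn ℚ)
    (hW : ∀ σ ∈ K, u.Wild l σ) (hinj : ∀ σ ∈ K, u.theta l σ = 0 → σ ∈ N)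
    {φ : G_ℚ} (hφ : A.IsFrobeniusAt φ p) (hn : ∀ n ∈ N, φ * n * φ⁻¹ ∈ N)
    (hK : ∀ σ ∈ K, φ * σ * φ⁻¹ ∈ K) :
    ∃ w ∈ K, ∀ S : Subgroup G_ℚ, N ≤ S → w ∈ S → (∀ σ ∈ S, σ ∈ K → φ * σ * φ⁻¹ ∈ S) → K ≤ S := by
  classical
  have : Fact p.Prime := ⟨u.isOver.prime⟩
  have : CharP (IsLocalRing.ResidueField A) p :=
    EllLocal.charP_kA u.isOver.prime u.isOver.liesOver
  have hd := hφ.mem_decompositionSubgroup
  set a := kummerRes A u.π φ ^ l with ha
  have ha0 : a ≠ 0 := by
    refine pow_ne_zero l fun e => ?_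
    have hv := EllLocal.smul_div_mem hd u.π_ne
    rw [kummerRes, EllLocal.resFun_eq_zero_iff ((A.valuation_le_one_iff _).mp hv.le), hv] at e
    exact lt_irrefl _ e
  let Θ : AddSubgroup (IsLocalRing.ResidueField A) :=
    { carrier := {x | ∃ σ ∈ K, u.theta l σ = x}
      zero_mem' := ⟨1, one_mem K, u.theta_of_mem (one_mem N)⟩
      add_mem' := by
        rintro _ _ ⟨σ, hσ, rfl⟩ ⟨τ, hτ, rfl⟩
        exact ⟨σ * τ, mul_mem hσ hτ, u.theta_mul hl (hKI hσ) (hW σ hσ) (hW τ hτ)⟩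
      neg_mem' := by
        rintro _ ⟨σ, hσ, rfl⟩
        refine ⟨σ⁻¹, inv_mem hσ, eq_neg_of_add_eq_zero_left ?_⟩
        rw [← u.theta_mul hl (hKI (inv_mem hσ)) (hW _ (inv_mem hσ)) (hW σ hσ), inv_mul_cancel,
          u.theta_of_mem (one_mem N)] }
  have hfin : (Θ : Set (IsLocalRing.ResidueField A)).Finite := by
    refine ((u.roots.finite_toSet).image fun x => resFun A ((x - u.π) / u.π ^ (l + 1))).subset ?_
    rintro _ ⟨σ, hσ, rfl⟩
    exact ⟨σ u.π, u.mem_roots.mpr ⟨σ, hKI hσ, rfl⟩, rfl⟩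
  have hconj : ∀ σ ∈ K, u.theta l (φ * σ * φ⁻¹) = a * u.theta l σ ^ p := fun σ hσ =>
    (u.theta_conj_frobenius hφ hn (hKI hσ) (hW σ hσ)).2
  obtain ⟨x₀, ⟨w, hw, rfl⟩, hgen⟩ := exists_orbit_generator ha0 Θ hfin (by
    rintro _ ⟨σ, hσ, rfl⟩
    exact ⟨_, hK σ hσ, hconj σ hσ⟩)
  refine ⟨w, hw, fun S hNS hwS hST σ hσ => ?_⟩
  let S' : AddSubgroup (IsLocalRing.ResidueField A) :=
    { carrier := {x | ∃ s ∈ S, s ∈ K ∧ u.theta l s = x}
      zero_mem' := ⟨1, one_mem S, one_mem K, u.theta_of_mem (one_mem N)⟩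
      add_mem' := by
        rintro _ _ ⟨s, hs, hs', rfl⟩ ⟨t, ht, ht', rfl⟩
        exact ⟨s * t, mul_mem hs ht, mul_mem hs' ht',
          u.theta_mul hl (hKI hs') (hW s hs') (hW t ht')⟩
      neg_mem' := by
        rintro _ ⟨s, hs, hs', rfl⟩
        refine ⟨s⁻¹, inv_mem hs, inv_mem hs', eq_neg_of_add_eq_zero_left ?_⟩
        rw [← u.theta_mul hl (hKI (inv_mem hs')) (hW _ (inv_mem hs')) (hW s hs'), inv_mul_cancel,
          u.theta_of_mem (one_mem N)] }
  obtain ⟨s, hs, hs', hθ⟩ := hgen S' ⟨w, hwS, hw, rfl⟩ (by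
    rintro _ ⟨s, hs, hs', rfl⟩ -
    exact ⟨_, hST s hs hs', hK s hs', hconj s hs'⟩) (⟨σ, hσ, rfl⟩ : u.theta l σ ∈ Θ)
  have hmem : s⁻¹ * σ ∈ K := mul_mem (inv_mem hs') hσ
  have h0 : u.theta l (s⁻¹ * σ) = 0 := by
    have := u.theta_mul hl (hKI hs') (hW s hs') (hW _ hmem)
    rw [mul_inv_cancel_left, hθ, left_eq_add] at this
    exact this
  simpa using mul_mem hs (hNS (hinj _ hmem h0))

end Fermat.Agent.FlatJ0
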