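import Fermat.Agent.FlatJ0.Tangent.SupersingularJump
import Fermat.Agent.FlatJ0.Tangent.Generator
import Fermat.Agent.Frobenius.Exists

/-!
# Tangent bound, supersingular shape

The wild part is generated by one element and Frobenius; the value of a normalised cocycle there
lies in the plane on which the tame generator acts as the square of its character, and Frobenius
inverts that action, so the possible values form at most a line.
-/

noncomputable section

namespace Fermat.Agent.FlatJ0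

open EllLocal (resFun kummerRes)

local notation "Ω" => AlgebraicClosure ℚ
local notation "G_ℚ" => (AlgebraicClosure ℚ) ≃ₐ[ℚ] (AlgebraicClosure ℚ)

variable {k : Type*} [Field k] {A : ValuationSubring Ω} {p : ℕ} {N : Subgroup G_ℚ}
  {ρ : G_ℚ →* Matrix (Fin 2) (Fin 2) k}

/-- A nonzero trace-zero vector fixed by the adjoint of any element. -/
lemma exists_fixed_ne_zero [CharP k p] (hp : 3 ≤ p) (g : G_ℚ) :
    ∃ u : Matrix (Fin 2) (Fin 2) k, u ≠ 0 ∧ u.trace = 0 ∧ adMap ρ g u = u := by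
  have h2 : (2 : k) ≠ 0 := by
    have : ((2 : ℕ) : k) ≠ 0 := fun e => by
      have := Nat.le_of_dvd two_pos ((CharP.cast_eq_zero_iff k p 2).mp e)
      omega
    exact_mod_cast this
  set t := (ρ g).trace / 2 with ht
  by_cases h0 : ρ g - t • 1 = 0
  · refine ⟨!![1, 0; 0, -1], fun e => ?_, by simp [Matrix.trace_fin_two], ?_⟩
    · simpa using congrFun (congrFun e 0) 0
    · rw [adMap_eq_self_iff, sub_eq_zero.mp h0]
      simp
  · refine ⟨_, h0, ?_, ?_⟩
    · rw [Matrix.trace_sub, Matrix.trace_smul, Matrix.trace_one, Fintype.card_fin, ht,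
        smul_eq_mul]
      push_cast
      field_simp
      ring
    · rw [adMap_eq_self_iff, mul_sub, sub_mul, mul_smul_comm, smul_mul_assoc, mul_one, one_mul]

variable [CharP k p]

/-- **Tangent bound, supersingular shape**, with a chosen generator. -/
theorem IsSSGen.finrank_adClasses_le_of_det {g : G_ℚ} (h : IsOver A p) (hp : 3 ≤ p)
    (hN : IsBoundKernel A p N ρ) (hg : IsSSGen A p ρ g) (hdet : p = 3 → (ρ g).det ^ 2 = 1) :
    FiniteDimensional k (adClasses A N ρ) ∧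
      Module.finrank k (adClasses A N ρ) ≤ Module.finrank k (adInvariants A ρ) + 1 := by
  classical
  have : Fact p.Prime := ⟨h.prime⟩
  have hK := rhoKer_le (A := A) (ρ := ρ)
  obtain ⟨u, -⟩ := exists_level_bound h hN.le hN.normal hN.isOpen hN.bound cutKer_le
    (fun s hs n hn => conj_mem_cutKer (MultRed.inertia_mem_decomposition hs) hn)
    (le_cutKer hN.le hN.trivial)
  have hwild := hg.wild h hp hN hdet u
  obtain ⟨φ, hφ⟩ := Frobenius.exists_isFrobeniusAt_qbar h.prime h.liesOver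
  have hφd := hφ.mem_decompositionSubgroup
  have hgd := MultRed.inertia_mem_decomposition hg.mem
  have hl : 1 ≤ p - 1 := by omega
  obtain ⟨w, hw, hgenw⟩ := u.exists_frobenius_generator hl (rhoKer A ρ) hK
    (fun σ hσ => (hwild σ hσ).1) (fun σ hσ => (hwild σ hσ).2) hφ
    (fun n hn => conj_mem_cutKer hφd hn) (fun σ hσ => conj_mem_rhoKer hφd hσ)
  have hn : ((p ^ 2 - 1 : ℕ) : k) ≠ 0 := fun e =>
    not_dvd_sq_sub_one h.prime ((CharP.cast_eq_zero_iff k p _).mp e)
  -- subgroups of the kernel on which two cocycles agree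
  have agree : ∀ f : G_ℚ → Matrix (Fin 2) (Fin 2) k,
      (∀ σ ∈ rhoKer A ρ, ∀ τ ∈ rhoKer A ρ, f (σ * τ) = f σ + f τ) →
      (∀ σ ∈ cutKer A N ρ, f σ = 0) → f w = 0 →
      (∀ σ ∈ rhoKer A ρ, f σ = 0 → f (φ * σ * φ⁻¹) = 0) →
      ∀ σ ∈ rhoKer A ρ, f σ = 0 := by
    intro f hmul hcut hfw hfφ σ hσ
    have h1 : f 1 = 0 := hcut 1 (one_mem _)
    let S : Subgroup G_ℚ :=
      { carrier := {σ | σ ∈ rhoKer A ρ ∧ f σ = 0}
        one_mem' := ⟨one_mem _, h1⟩
        mul_mem' := fun {a b} ha hb =>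
          ⟨mul_mem ha.1 hb.1, by rw [hmul a ha.1 b hb.1, ha.2, hb.2, add_zero]⟩
        inv_mem' := fun {a} ha => ⟨inv_mem ha.1, by
          have := hmul a⁻¹ (inv_mem ha.1) a ha.1
          rwa [inv_mul_cancel, h1, ha.2, add_zero, eq_comm] at this⟩ }
    exact (hgenw S (fun s hs => ⟨cutKer_le_rhoKer hs, hcut s hs⟩) ⟨hw, hfw⟩
      (fun s hs _ => ⟨conj_mem_rhoKer hφd hs.1, hfφ s hs.1 hs.2⟩) hσ).2
  have emul : ∀ c ∈ adCocycles A N ρ, ∀ σ ∈ rhoKer A ρ, ∀ τ ∈ rhoKer A ρ,
      evalAt A k (σ * τ) c = evalAt A k σ c + evalAt A k τ c := fun c hc σ hσ τ hτ => by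
    rw [evalAt_mul hc (MultRed.inertia_mem_decomposition hσ.1)
      (MultRed.inertia_mem_decomposition hτ.1), adMap_of_eq_one hσ.2]
  have econj : ∀ c ∈ adCocycles A N ρ, ∀ ψ ∈ A.decompositionSubgroup ℚ, ∀ σ ∈ rhoKer A ρ,
      evalAt A k (ψ * σ * ψ⁻¹) c = adMap ρ ψ (evalAt A k σ c) := fun c hc ψ hψ σ hσ =>
    evalAt_conj_of_eq_one hc hψ (MultRed.inertia_mem_decomposition hσ.1) hσ.2
  -- the tame character on `theta`
  obtain ⟨a, ha⟩ : ∃ a, a = kummerRes A u.π g ^ (p - 1) := ⟨_, rfl⟩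
  have horder : ∀ j : ℕ, kummerRes A u.π g ^ j = 1 → p ^ 2 - 1 ∣ j := fun j hj =>
    hg.order_eq h le_rfl cutKer_le_rhoKer u hj
  have hfac : p ^ 2 - 1 = (p + 1) * (p - 1) := by simpa using Nat.sq_sub_sq p 1
  have ha1 : a ^ (p + 1) = 1 := by
    rw [ha, ← pow_mul, mul_comm, ← hfac, ← u.kummerRes_pow hg.mem, ← u.wild_one_iff (pow_mem hg.mem _)]
    exact (hwild _ hg.pow_mem_rhoKer).1.mono u hl
  have ha2 : a ^ 2 ≠ 1 := fun e => by
    rw [ha, ← pow_mul] at e
    have := horder _ e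
    rw [hfac] at this
    have := Nat.le_of_dvd (by omega) (Nat.dvd_of_mul_dvd_mul_right (by omega)
      (by rwa [mul_comm (p - 1) 2] at this : (p + 1) * (p - 1) ∣ 2 * (p - 1)))
    omega
  have : CharP (IsLocalRing.ResidueField A) p := EllLocal.charP_kA h.prime h.liesOver
  have ha0 : a ≠ 0 := fun e => by simp [e] at ha1
  obtain ⟨s, hs⟩ : ∃ s : ℕ, a + a ^ p = s := by
    refine exists_natCast_of_pow_eq_self (p := p) ?_
    have e : p * p = p ^ 2 - 1 + 1 := by
      rw [Nat.sub_add_cancel (Nat.one_le_pow _ _ h.prime.pos), sq]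
    rw [add_pow_char, ← pow_mul, e, hfac, pow_succ, pow_mul, ha1, one_pow, one_mul, add_comm]
  have hquad : a ^ 2 + 1 = (s : IsLocalRing.ResidueField A) * a := by
    rw [← hs, add_mul, ← pow_succ, ha1, sq]
  have hs4 : ((s : k) ^ 2) ≠ 4 := fun e => by
    have e1 : ((s ^ 2 : ℕ) : k) = ((4 : ℕ) : k) := by push_cast; exact e
    rw [CharP.natCast_eq_natCast k p, ← CharP.natCast_eq_natCast (IsLocalRing.ResidueField A) p]
      at e1
    push_cast at e1
    have e2 : (a ^ 2 - 1) ^ 2 = 0 := by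
      linear_combination (a ^ 2 + 1 + (s : IsLocalRing.ResidueField A) * a) * hquad + a ^ 2 * e1
    exact ha2 (sub_eq_zero.mp (eq_zero_of_pow_eq_zero e2))
  set D := adMap ρ g with hD
  set E := adMap ρ φ with hE
  have hquadD : ∀ c ∈ adCocycles A N ρ, ∀ τ ∈ rhoKer A ρ,
      D (D (evalAt A k τ c)) + evalAt A k τ c = (s : k) • D (evalAt A k τ c) := by
    intro c hc τ hτ
    have hτ1 := conj_mem_rhoKer hgd hτ
    have hτ2 := conj_mem_rhoKer hgd hτ1
    have h1 := u.theta_conj_inertia hg.mem hτ.1 (hwild τ hτ).1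
    have h2 := u.theta_conj_inertia hg.mem hτ1.1 (hwild _ hτ1).1
    rw [← ha] at h1 h2
    set τ1 := g * τ * g⁻¹
    set τ2 := g * τ1 * g⁻¹
    have hmem : (τ1 ^ s)⁻¹ * (τ2 * τ) ∈ rhoKer A ρ :=
      mul_mem (inv_mem (pow_mem hτ1 s)) (mul_mem hτ2 hτ)
    have hθ : u.theta (p - 1) ((τ1 ^ s)⁻¹ * (τ2 * τ)) = 0 := by
      have e := u.theta_mul hl (pow_mem hτ1.1 s) (hwild _ (pow_mem hτ1 s)).1 (hwild _ hmem).1
      rw [mul_inv_cancel_left, u.theta_mul hl hτ2.1 (hwild _ hτ2).1 (hwild τ hτ).1,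
        u.theta_pow hl hτ1.1 (hwild _ hτ1).1, h2.2, h1.2] at e
      linear_combination (-1 : IsLocalRing.ResidueField A) * e + u.theta (p - 1) τ * hquad
    have h0 := ((hwild _ hmem).2 hθ).2.2 c hc
    have e := emul c hc _ (pow_mem hτ1 s) _ hmem
    rw [mul_inv_cancel_left, h0, add_zero, emul c hc _ hτ2 _ hτ, econj c hc g hgd τ1 hτ1,
      econj c hc g hgd τ hτ, evalAt_pow hc (MultRed.inertia_mem_decomposition hτ1.1),
      Finset.sum_congr rfl fun i _ => adMap_of_eq_one (by rw [map_pow, hτ1.2, one_pow]) _,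
      Finset.sum_const, Finset.card_range, econj c hc g hgd τ hτ,
      ← Nat.cast_smul_eq_nsmul k] at e
    exact e
  let L : adNormalised A N ρ g →ₗ[k] Matrix (Fin 2) (Fin 2) k :=
    evalAt A k w ∘ₗ (Submodule.subtype (adNormalised A N ρ g))
  refine finrank_adClasses_le_of_line h.prime h.liesOver hN.trivial hN.continuous hg.mem hn hg.pow
    (rhoKer A ρ) (fun σ hσ => by
      obtain ⟨i, s', hs', rfl⟩ := hg.decomp σ hσ
      exact ⟨i, s', hs', hs'.1, rfl⟩) hg.pow_mem_rhoKer hφ L inferInstance ?_ ?_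
  swap
  · intro c hc _ σ hσ
    exact agree (fun σ => evalAt A k σ c.1) (emul c.1 c.2.1) (fun σ hσ => hσ.2.2 c.1 c.2.1) hc
      (fun σ hσ h0 => by rw [econj c.1 c.2.1 φ hφd σ hσ, h0, map_zero]) σ hσ
  -- the values form at most a line
  let V₂ : Submodule k (Matrix (Fin 2) (Fin 2) k) :=
    { carrier := {v | v.trace = 0 ∧ D (D v) + v = (s : k) • D v}
      zero_mem' := ⟨by simp, by simp⟩
      add_mem' := fun {a b} ha hb => ⟨by simp [ha.1, hb.1], by
        rw [map_add, map_add, smul_add, ← ha.2, ← hb.2]; abel⟩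
      smul_mem' := fun t a ha => ⟨by simp [ha.1], by
        rw [map_smul, map_smul, ← smul_add, ha.2, smul_comm]⟩ }
  let V₀ : Submodule k (Matrix (Fin 2) (Fin 2) k) :=
    LinearMap.ker (Matrix.traceLinearMap (Fin 2) k k)
  have hV0 : Module.finrank k V₀ < 4 := by
    have h4 : Module.finrank k (Matrix (Fin 2) (Fin 2) k) = 4 := by
      simp [Module.finrank_matrix]
    rw [← h4]
    refine Submodule.finrank_lt fun e => ?_
    have h1 : (!![1, 0; 0, 0] : Matrix (Fin 2) (Fin 2) k) ∈ V₀ := e ▸ Submodule.mem_top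
    simp [V₀, Matrix.trace_fin_two] at h1
  have hV2 : Module.finrank k V₂ ≤ 2 := by
    obtain ⟨x, hx0, hxt, hxD⟩ := exists_fixed_ne_zero (ρ := ρ) (by omega : 3 ≤ p) g
    have hlt : V₂ < V₀ := by
      refine lt_of_le_of_ne (fun v hv => hv.1) fun e => ?_
      have hx2 : x ∈ V₂ := e ▸ (show x ∈ V₀ from hxt)
      have h2 := hx2.2
      rw [hD, hxD, hxD, ← two_smul k x, ← sub_eq_zero, ← sub_smul, smul_eq_zero] at h2
      exact hs4 (by rw [← sub_eq_zero.mp (h2.resolve_right hx0)]; norm_num)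
    have := Submodule.finrank_lt_finrank_of_lt hlt
    omega
  have hrange : LinearMap.range L ≤ V₂ := by
    rintro _ ⟨c, rfl⟩
    exact ⟨trace_evalAt c.2.1 w, hquadD c.1 c.2.1 w hw⟩
  by_contra hgt
  push Not at hgt
  have heq : LinearMap.range L = V₂ :=
    Submodule.eq_of_le_of_finrank_le hrange (hV2.trans hgt)
  -- Frobenius inverts the action of `g`
  obtain ⟨Fc, hFc, hFc'⟩ := hN.continuous
  have htame : ρ (φ * g * φ⁻¹) = ρ (g ^ p) := by
    have := (TameInertia.map_tame_inertia (G := (Matrix (Fin 2) (Fin 2) k)ˣ) (ρ := ρ.toHomUnits)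
      ⟨Fc, hFc, fun σ hσ => Units.ext (hFc' σ hσ)⟩ h.prime h.liesOver (e := p ^ 2 - 1)
      ((h.prime.coprime_iff_not_dvd.mpr (not_dvd_sq_sub_one h.prime)).symm)
      (fun σ hσ => Units.ext (by
        obtain ⟨i, hi⟩ := hg.gen σ hσ
        rw [Units.val_pow_eq_pow_val]
        show ρ σ ^ (p ^ 2 - 1) = 1
        rw [hi, ← pow_mul, mul_comm, pow_mul, hg.pow, one_pow]))).2 φ hφ g hg.mem
    rw [← map_inv, ← map_mul, ← map_mul, ← map_pow] at this
    exact congrArg Units.val this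
  have hED : ∀ v, E (D v) = adMap ρ (g ^ p) (E v) := by
    intro v
    rw [hE, hD, ← adMap_mul_apply, ← adMap_mul_apply]
    have e : ρ (φ * g) = ρ (g ^ p * φ) := by
      rw [show φ * g = φ * g * φ⁻¹ * φ by group, map_mul, htame, ← map_mul]
    have e' : ρ (φ * g)⁻¹ = ρ (g ^ p * φ)⁻¹ := by
      calc ρ (φ * g)⁻¹ = ρ (φ * g)⁻¹ * (ρ (g ^ p * φ) * ρ (g ^ p * φ)⁻¹) := by
            rw [← map_mul, mul_inv_cancel, map_one, mul_one]
        _ = ρ (g ^ p * φ)⁻¹ := by
            rw [← e, ← mul_assoc, ← map_mul, inv_mul_cancel, map_one, one_mul]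
    rw [adMap_apply, adMap_apply, e, e']
  have hzero : ∀ c : adNormalised A N ρ g, L c = 0 := by
    intro c
    -- a cocycle with the Frobenius translate of the value of `c`
    have hφw := conj_mem_rhoKer hφd hw
    obtain ⟨c', hc'⟩ : evalAt A k (φ * w * φ⁻¹) c.1 ∈ LinearMap.range L :=
      heq ▸ ⟨trace_evalAt c.2.1 _, hquadD c.1 c.2.1 _ hφw⟩
    change evalAt A k w c'.1 = _ at hc'
    have hsame := agree (fun σ => evalAt A k σ c'.1 - E (evalAt A k σ c.1))
      (fun σ hσ τ hτ => by rw [emul c'.1 c'.2.1 σ hσ τ hτ, emul c.1 c.2.1 σ hσ τ hτ, map_add]; abel)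
      (fun σ hσ => by rw [hσ.2.2 c'.1 c'.2.1, hσ.2.2 c.1 c.2.1, map_zero, sub_zero])
      (by rw [hc', econj c.1 c.2.1 φ hφd w hw, hE, sub_self])
      (fun σ hσ h0 => by
        simp only [sub_eq_zero] at h0 ⊢
        rw [econj c'.1 c'.2.1 φ hφd σ hσ, econj c.1 c.2.1 φ hφd σ hσ, h0])
    have h1 := sub_eq_zero.mp (hsame _ (conj_mem_rhoKer hgd hw))
    rw [econj c'.1 c'.2.1 g hgd w hw, econj c.1 c.2.1 g hgd w hw, hc',
      econj c.1 c.2.1 φ hφd w hw, ← hD, ← hE, hED] at h1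
    set x := E (evalAt A k w c.1) with hx
    have hquadx : D (D x) + x = (s : k) • D x := by
      have := hquadD c.1 c.2.1 _ hφw
      rwa [econj c.1 c.2.1 φ hφd w hw, ← hE, ← hx] at this
    have hD2 : D (D x) = x := by
      calc D (D x) = D (adMap ρ (g ^ p) x) := by rw [h1]
        _ = x := by rw [hD, ← adMap_mul_apply, ← pow_succ', hg.adMap_central]
    rw [hD2, ← two_smul k] at hquadx
    have h4 : ((s : k) ^ 2) • x = (4 : k) • x := by
      have := congrArg (fun y => (2 : k) • y) hquadx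
      have e2 := congrArg (fun y => (s : k) • D y) hquadx
      simp only [map_smul, hD2, smul_smul] at this e2
      rw [show (4 : k) = 2 * 2 by norm_num, this, sq, ← e2, mul_comm]
    rw [← sub_eq_zero, ← sub_smul, smul_eq_zero] at h4
    have hx0 := h4.resolve_left (sub_ne_zero.mpr hs4)
    rw [hx, hE, adMap_apply] at hx0
    show evalAt A k w c.1 = 0
    calc evalAt A k w c.1
        = ρ φ⁻¹ * (ρ φ * evalAt A k w c.1 * ρ φ⁻¹) * ρ φ := by
          rw [← mul_assoc, ← mul_assoc, ← map_mul, inv_mul_cancel, map_one, one_mul, mul_assoc,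
            ← map_mul, inv_mul_cancel, map_one, mul_one]
      _ = 0 := by rw [hx0, mul_zero, zero_mul]
  have : LinearMap.range L = ⊥ := LinearMap.range_eq_bot.mpr (LinearMap.ext hzero)
  rw [this, finrank_bot] at hgt
  omega

/-- **Supersingular shape, `p ≥ 5`.** -/
theorem IsSSGen.finrank_adClasses_le {g : G_ℚ} (h : IsOver A p) (hp : 5 ≤ p)
    (hN : IsBoundKernel A p N ρ) (hg : IsSSGen A p ρ g) :
    FiniteDimensional k (adClasses A N ρ) ∧
      Module.finrank k (adClasses A N ρ) ≤ Module.finrank k (adInvariants A ρ) + 1 :=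
  hg.finrank_adClasses_le_of_det h (by omega) hN fun h3 => absurd h3 (by omega)

end Fermat.Agent.FlatJ0
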