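import Fermat.Agent.FlatJ0.Tangent.Ordinary
import Fermat.Agent.FlatJ0.Tangent.Supersingular

/-!
# Tangent bound from the ramification bound

If `N` has the bound `p / (p - 1)` and `ρ` is ordinary or supersingular on the decomposition
group, the classes in `H¹(G_p, ad⁰ρ)` vanishing on `N` form a space of dimension at most
`h⁰(G_p, ad⁰ρ) + 1`.
-/

noncomputable section

namespace Fermat.Agent.FlatJ0

local notation "Ω" => AlgebraicClosure ℚ
local notation "G_ℚ" => (AlgebraicClosure ℚ) ≃ₐ[ℚ] (AlgebraicClosure ℚ)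

variable {k : Type*} [Field k] {A : ValuationSubring Ω} {p : ℕ} [CharP k p]
  {N : Subgroup G_ℚ} {ρ : G_ℚ →* Matrix (Fin 2) (Fin 2) k}

/-- **Tangent bound, ordinary case.** -/
theorem finrank_adClasses_le_ordinary (h : IsOver A p) (hp : 5 ≤ p) (hN : IsBoundKernel A p N ρ)
    (hρ : IsOrdShape A p ρ) :
    FiniteDimensional k (adClasses A N ρ) ∧
      Module.finrank k (adClasses A N ρ) ≤ Module.finrank k (adInvariants A ρ) + 1 := by
  obtain ⟨g, hg⟩ := hρ.exists_gen
  exact hg.finrank_adClasses_le hρ h hp hN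

/-- **Tangent bound, supersingular case.** -/
theorem finrank_adClasses_le_supersingular (h : IsOver A p) (hp : 5 ≤ p)
    (hN : IsBoundKernel A p N ρ) (hρ : IsSSShape A p ρ) :
    FiniteDimensional k (adClasses A N ρ) ∧
      Module.finrank k (adClasses A N ρ) ≤ Module.finrank k (adInvariants A ρ) + 1 := by
  obtain ⟨g, hg⟩ := hρ.exists_gen
  exact hg.finrank_adClasses_le h hp hN

end Fermat.Agent.FlatJ0
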