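import Fermat.Agent.FlatJ0.Tangent.Defs
import Fermat.Agent.TameInertia.Frobenius

/-!
# Counting classes of adjoint cocycles at `p`

A cocycle is normalised at an inertia element `g` of order prime to `p` in `ρ`; it is then
determined by its values on the kernel of the tame part and the fixed part of its value at
Frobenius.
-/

noncomputable section

namespace Fermat.Agent.FlatJ0

local notation "Ω" => AlgebraicClosure ℚ
local notation "G_ℚ" => (AlgebraicClosure ℚ) ≃ₐ[ℚ] (AlgebraicClosure ℚ)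

variable {k : Type*} [Field k] {A : ValuationSubring Ω} {p : ℕ} {N : Subgroup G_ℚ}
  {ρ : G_ℚ →* Matrix (Fin 2) (Fin 2) k}

/-- The adjoint action. -/
def adMap (ρ : G_ℚ →* Matrix (Fin 2) (Fin 2) k) (σ : G_ℚ) :
    Module.End k (Matrix (Fin 2) (Fin 2) k) :=
  LinearMap.mulRight k (ρ σ⁻¹) ∘ₗ LinearMap.mulLeft k (ρ σ)

lemma adMap_apply (σ : G_ℚ) (X : Matrix (Fin 2) (Fin 2) k) :
    adMap ρ σ X = ρ σ * X * ρ σ⁻¹ :=
  rfl

lemma adMap_mul_apply (σ τ : G_ℚ) (X : Matrix (Fin 2) (Fin 2) k) :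
    adMap ρ (σ * τ) X = adMap ρ σ (adMap ρ τ X) := by
  simp only [adMap_apply, map_mul, mul_inv_rev, mul_assoc]

lemma adMap_of_eq_one {σ : G_ℚ} (hσ : ρ σ = 1) (X : Matrix (Fin 2) (Fin 2) k) :
    adMap ρ σ X = X := by
  have h' : ρ σ⁻¹ = 1 := by
    calc ρ σ⁻¹ = ρ σ⁻¹ * ρ σ := by rw [hσ, mul_one]
      _ = 1 := by rw [← map_mul, inv_mul_cancel, map_one]
  rw [adMap_apply, hσ, h', one_mul, mul_one]

lemma adMap_one (X : Matrix (Fin 2) (Fin 2) k) : adMap ρ 1 X = X := adMap_of_eq_one (map_one ρ) X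

lemma trace_adMap (σ : G_ℚ) (X : Matrix (Fin 2) (Fin 2) k) :
    (adMap ρ σ X).trace = X.trace := by
  rw [adMap_apply, Matrix.trace_mul_cycle, ← map_mul, inv_mul_cancel, map_one, one_mul]

lemma adMap_eq_self_iff (σ : G_ℚ) (X : Matrix (Fin 2) (Fin 2) k) :
    adMap ρ σ X = X ↔ ρ σ * X = X * ρ σ := by
  rw [adMap_apply]
  constructor
  · intro h
    conv_rhs => rw [← h, mul_assoc, ← map_mul, inv_mul_cancel, map_one, mul_one]
  · intro h
    rw [h, mul_assoc, ← map_mul, mul_inv_cancel, map_one, mul_one]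

open Classical in
/-- The value of a function on the decomposition group, zero outside. -/
def evalAt (A : ValuationSubring Ω) (k : Type*) [Field k] (σ : G_ℚ) :
    (↥(A.decompositionSubgroup ℚ) → Matrix (Fin 2) (Fin 2) k) →ₗ[k] Matrix (Fin 2) (Fin 2) k :=
  if h : σ ∈ A.decompositionSubgroup ℚ then LinearMap.proj ⟨σ, h⟩ else 0

lemma evalAt_apply {σ : G_ℚ} (hσ : σ ∈ A.decompositionSubgroup ℚ)
    (c : ↥(A.decompositionSubgroup ℚ) → Matrix (Fin 2) (Fin 2) k) :
    evalAt A k σ c = c ⟨σ, hσ⟩ := by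
  rw [evalAt, dif_pos hσ]; rfl

section Cocycle

variable {c : ↥(A.decompositionSubgroup ℚ) → Matrix (Fin 2) (Fin 2) k}

lemma evalAt_mul (hc : c ∈ adCocycles A N ρ) {σ τ : G_ℚ} (hσ : σ ∈ A.decompositionSubgroup ℚ)
    (hτ : τ ∈ A.decompositionSubgroup ℚ) :
    evalAt A k (σ * τ) c = evalAt A k σ c + adMap ρ σ (evalAt A k τ c) := by
  rw [evalAt_apply (mul_mem hσ hτ), evalAt_apply hσ, evalAt_apply hτ, adMap_apply]
  exact hc.1 ⟨σ, hσ⟩ ⟨τ, hτ⟩

lemma evalAt_one (hc : c ∈ adCocycles A N ρ) : evalAt A k 1 c = 0 := by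
  have h := evalAt_mul hc (one_mem _) (one_mem _)
  rw [mul_one, adMap_one, left_eq_add] at h
  exact h

lemma trace_evalAt (hc : c ∈ adCocycles A N ρ) (σ : G_ℚ) : (evalAt A k σ c).trace = 0 := by
  by_cases hσ : σ ∈ A.decompositionSubgroup ℚ
  · rw [evalAt_apply hσ]; exact hc.2.1 _
  · rw [evalAt, dif_neg hσ]; simp

lemma evalAt_of_mem (hc : c ∈ adCocycles A N ρ) {σ : G_ℚ} (hσ : σ ∈ A.decompositionSubgroup ℚ)
    (hN : σ ∈ N) : evalAt A k σ c = 0 := by
  rw [evalAt_apply hσ]; exact hc.2.2.1 _ hN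

lemma evalAt_inv (hc : c ∈ adCocycles A N ρ) {σ : G_ℚ} (hσ : σ ∈ A.decompositionSubgroup ℚ) :
    evalAt A k σ⁻¹ c = -adMap ρ σ⁻¹ (evalAt A k σ c) := by
  have h := evalAt_mul hc (inv_mem hσ) hσ
  rw [inv_mul_cancel, evalAt_one hc] at h
  exact eq_neg_of_add_eq_zero_left h.symm

lemma evalAt_conj (hc : c ∈ adCocycles A N ρ) {σ τ : G_ℚ} (hσ : σ ∈ A.decompositionSubgroup ℚ)
    (hτ : τ ∈ A.decompositionSubgroup ℚ) :
    evalAt A k (σ * τ * σ⁻¹) c =
      evalAt A k σ c + adMap ρ σ (evalAt A k τ c) -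
        adMap ρ (σ * τ * σ⁻¹) (evalAt A k σ c) := by
  have h := evalAt_mul hc (mul_mem (mul_mem hσ hτ) (inv_mem hσ)) hσ
  rw [inv_mul_cancel_right, evalAt_mul hc hσ hτ] at h
  exact eq_sub_of_add_eq h.symm

lemma evalAt_pow (hc : c ∈ adCocycles A N ρ) {σ : G_ℚ} (hσ : σ ∈ A.decompositionSubgroup ℚ)
    (n : ℕ) : evalAt A k (σ ^ n) c = ∑ i ∈ Finset.range n, adMap ρ (σ ^ i) (evalAt A k σ c) := by
  induction n with
  | zero => rw [pow_zero, evalAt_one hc, Finset.sum_range_zero]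
  | succ n ih => rw [pow_succ, evalAt_mul hc (pow_mem hσ n) hσ, ih, Finset.sum_range_succ]

/-- A cocycle vanishing on inertia and at Frobenius vanishes. -/
theorem eq_zero_of_inertia_frobenius (hA : A.LiesOverPrime p) (hp : p.Prime)
    (hc : c ∈ adCocycles A N ρ) {φ : G_ℚ} (hφ : A.IsFrobeniusAt φ p)
    (hI : ∀ σ ∈ A.inertiaSubgroupIn ℚ, evalAt A k σ c = 0) (hF : evalAt A k φ c = 0) :
    c = 0 := by
  obtain ⟨F₀, hF₀, hvan⟩ := hc.2.2.2
  funext g
  obtain ⟨n, σ, hσ, hfix⟩ := TameInertia.exists_eq_frobenius_pow_mul hp hA hφ g.2 F₀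
  have hσd := MultRed.inertia_mem_decomposition hσ
  have hφd := hφ.mem_decompositionSubgroup
  have hd : φ ^ n * σ ∈ A.decompositionSubgroup ℚ := mul_mem (pow_mem hφd n) hσd
  have h1 : evalAt A k (φ ^ n * σ) c = 0 := by
    rw [evalAt_mul hc (pow_mem hφd n) hσd, hI σ hσ, map_zero, add_zero, evalAt_pow hc hφd]
    exact Finset.sum_eq_zero fun i _ => by rw [hF, map_zero]
  have h2 : evalAt A k ((φ ^ n * σ)⁻¹ * g) c = 0 := by
    rw [evalAt_apply (mul_mem (inv_mem hd) g.2)]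
    exact hvan _ hfix
  have h3 := evalAt_mul hc hd (mul_mem (inv_mem hd) g.2)
  rw [mul_inv_cancel_left, h1, h2, map_zero, add_zero, evalAt_apply g.2] at h3
  exact h3

end Cocycle

/-- The average of the powers of `g` on the adjoint. -/
def adAvg (ρ : G_ℚ →* Matrix (Fin 2) (Fin 2) k) (g : G_ℚ) (n : ℕ) :
    Module.End k (Matrix (Fin 2) (Fin 2) k) :=
  (n : k)⁻¹ • ∑ i ∈ Finset.range n, adMap ρ (g ^ i)

lemma adAvg_apply (g : G_ℚ) (n : ℕ) (X : Matrix (Fin 2) (Fin 2) k) :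
    adAvg ρ g n X = (n : k)⁻¹ • ∑ i ∈ Finset.range n, adMap ρ (g ^ i) X := by
  simp [adAvg]

/-- The trace-zero fixed vectors of `g`. -/
def adFixed (ρ : G_ℚ →* Matrix (Fin 2) (Fin 2) k) (g : G_ℚ) :
    Submodule k (Matrix (Fin 2) (Fin 2) k) where
  carrier := {X | X.trace = 0 ∧ adMap ρ g X = X}
  zero_mem' := ⟨by simp, map_zero _⟩
  add_mem' := fun ⟨h1, h2⟩ ⟨h3, h4⟩ => ⟨by simp [h1, h3], by rw [map_add, h2, h4]⟩
  smul_mem' := fun t _ ⟨h1, h2⟩ => ⟨by simp [h1], by rw [map_smul, h2]⟩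

lemma adMap_pow_of_fixed {g : G_ℚ} {X : Matrix (Fin 2) (Fin 2) k} (hX : adMap ρ g X = X)
    (i : ℕ) : adMap ρ (g ^ i) X = X := by
  induction i with
  | zero => rw [pow_zero, adMap_one]
  | succ i ih => rw [pow_succ, adMap_mul_apply, hX, ih]

lemma adAvg_of_fixed {g : G_ℚ} {n : ℕ} (hn : (n : k) ≠ 0) {X : Matrix (Fin 2) (Fin 2) k}
    (hX : adMap ρ g X = X) : adAvg ρ g n X = X := by
  rw [adAvg_apply, Finset.sum_congr rfl fun i _ => adMap_pow_of_fixed hX i, Finset.sum_const,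
    Finset.card_range, ← Nat.cast_smul_eq_nsmul k, smul_smul, inv_mul_cancel₀ hn, one_smul]

lemma adMap_telescope (g : G_ℚ) (n : ℕ) (X : Matrix (Fin 2) (Fin 2) k) :
    adMap ρ g (∑ i ∈ Finset.range n, adMap ρ (g ^ i) X) + X =
      ∑ i ∈ Finset.range n, adMap ρ (g ^ i) X + adMap ρ (g ^ n) X := by
  rw [map_sum, ← Finset.sum_range_succ, Finset.sum_range_succ',
    pow_zero, adMap_one]
  exact congrArg (· + X) (Finset.sum_congr rfl fun i _ => by rw [← adMap_mul_apply, ← pow_succ'])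

lemma adAvg_mem {g : G_ℚ} {n : ℕ} (hg : ρ g ^ n = 1) {X : Matrix (Fin 2) (Fin 2) k}
    (hX : X.trace = 0) : adAvg ρ g n X ∈ adFixed ρ g := by
  refine ⟨?_, ?_⟩
  · simp [adAvg_apply, trace_adMap, hX]
  · rw [adAvg_apply, map_smul]
    refine congrArg _ (add_right_cancel (b := X) ?_)
    rw [adMap_telescope, adMap_of_eq_one (by rw [map_pow, hg])]

/-- A coboundary function. -/
def adCobound (A : ValuationSubring Ω) (ρ : G_ℚ →* Matrix (Fin 2) (Fin 2) k) :
    Matrix (Fin 2) (Fin 2) k →ₗ[k] (↥(A.decompositionSubgroup ℚ) → Matrix (Fin 2) (Fin 2) k) :=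
  LinearMap.pi fun σ => adMap ρ σ - LinearMap.id

lemma adCobound_apply (X : Matrix (Fin 2) (Fin 2) k) (σ : ↥(A.decompositionSubgroup ℚ)) :
    adCobound A ρ X σ = adMap ρ σ X - X :=
  rfl

lemma adCobound_mem_cocycles (htriv : ∀ n ∈ N, ρ n = 1)
    (hcont : ∃ F : IntermediateField ℚ Ω, FiniteDimensional ℚ F ∧
      ∀ σ ∈ F.fixingSubgroup, ρ σ = 1)
    (X : Matrix (Fin 2) (Fin 2) k) :
    adCobound A ρ X ∈ adCocycles A N ρ := by
  obtain ⟨F, hF, hF'⟩ := hcont
  refine ⟨fun σ τ => ?_, fun σ => ?_, fun σ hσ => ?_, F, hF, fun σ hσ => ?_⟩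
  · rw [adCobound_apply, adCobound_apply, adCobound_apply, Subgroup.coe_mul, adMap_mul_apply,
      ← adMap_apply, map_sub]
    abel
  · rw [adCobound_apply, Matrix.trace_sub, trace_adMap, sub_self]
  · rw [adCobound_apply, adMap_of_eq_one (htriv _ hσ), sub_self]
  · rw [adCobound_apply, adMap_of_eq_one (hF' _ hσ), sub_self]

/-- Normalised cocycles. -/
def adNormalised (A : ValuationSubring Ω) (N : Subgroup G_ℚ)
    (ρ : G_ℚ →* Matrix (Fin 2) (Fin 2) k) (g : G_ℚ) :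
    Submodule k (↥(A.decompositionSubgroup ℚ) → Matrix (Fin 2) (Fin 2) k) :=
  adCocycles A N ρ ⊓ (adFixed ρ g).comap (evalAt A k g)

/-- **Counting.** If normalised cocycles with vanishing value at `w₀` and vanishing fixed part at
Frobenius vanish on a set `S` generating inertia with `g`, and the values at `w₀` span at most a
line, the classes number at most `h⁰ + 1`. -/
theorem finrank_map_le_of_line (hp : p.Prime) (hA : A.LiesOverPrime p)
    {Z : Submodule k (↥(A.decompositionSubgroup ℚ) → Matrix (Fin 2) (Fin 2) k)}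
    (hZle : Z ≤ adCocycles A N ρ) (hZB : ∀ X, X.trace = 0 → adCobound A ρ X ∈ Z)
    {g : G_ℚ} (hgI : g ∈ A.inertiaSubgroupIn ℚ) {n : ℕ} (hn : (n : k) ≠ 0) (hg : ρ g ^ n = 1)
    (S : Set G_ℚ) (hgen : ∀ σ ∈ A.inertiaSubgroupIn ℚ, ∃ i : ℕ, ∃ s ∈ S,
      s ∈ A.inertiaSubgroupIn ℚ ∧ σ = g ^ i * s)
    (hgn : g ^ n ∈ S) {φ : G_ℚ} (hφ : A.IsFrobeniusAt φ p)
    {M : Type*} [AddCommGroup M] [Module k M]
    (L : ↥(Z ⊓ (adFixed ρ g).comap (evalAt A k g)) →ₗ[k] M)
    (hfd : Module.Finite k (LinearMap.range L))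
    (hline : Module.finrank k (LinearMap.range L) ≤ 1)
    (hker : ∀ c : ↥(Z ⊓ (adFixed ρ g).comap (evalAt A k g)), L c = 0 →
      adAvg ρ g n (evalAt A k φ c.1) = 0 → ∀ s ∈ S, evalAt A k s c.1 = 0) :
    FiniteDimensional k (Z.map (adCoboundaries A ρ).mkQ) ∧
      Module.finrank k (Z.map (adCoboundaries A ρ).mkQ) ≤ Module.finrank k (adInvariants A ρ) + 1 := by
  have hcocy : ∀ c : ↥(Z ⊓ (adFixed ρ g).comap (evalAt A k g)), c.1 ∈ adCocycles A N ρ :=
    fun c => hZle c.2.1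
  classical
  have := hfd
  let V := adFixed ρ g
  have hgd := MultRed.inertia_mem_decomposition hgI
  have hφd := hφ.mem_decompositionSubgroup
  let avgF : ↥(Z ⊓ (adFixed ρ g).comap (evalAt A k g)) →ₗ[k] V :=
    (adAvg ρ g n ∘ₗ evalAt A k φ ∘ₗ (Submodule.subtype (Z ⊓ (adFixed ρ g).comap (evalAt A k g)))).codRestrict V
      fun c => adAvg_mem hg (trace_evalAt (hcocy c) φ)
  let T : ↥(Z ⊓ (adFixed ρ g).comap (evalAt A k g)) →ₗ[k] LinearMap.range L × V := L.rangeRestrict.prod avgF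
  have hTinj : Function.Injective T := by
    refine (injective_iff_map_eq_zero T).mpr fun c hc => ?_
    have hL : L c = 0 := congrArg (fun x => (x.1 : M)) hc
    have hav : adAvg ρ g n (evalAt A k φ c.1) = 0 := congrArg (fun x => (x.2 : Matrix (Fin 2) (Fin 2) k)) hc
    have hS := hker c hL hav
    have hcg : evalAt A k g c.1 = 0 := by
      have h := hS _ hgn
      rw [evalAt_pow (hcocy c) hgd, Finset.sum_congr rfl fun i _ => adMap_pow_of_fixed c.2.2.2 i,
        Finset.sum_const, Finset.card_range, ← Nat.cast_smul_eq_nsmul k, smul_eq_zero] at h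
      exact h.resolve_left hn
    have hI : ∀ σ ∈ A.inertiaSubgroupIn ℚ, evalAt A k σ c.1 = 0 := by
      intro σ hσ
      obtain ⟨i, s, hs, hsI, rfl⟩ := hgen σ hσ
      rw [evalAt_mul (hcocy c) (pow_mem hgd i) (MultRed.inertia_mem_decomposition hsI), hS s hs,
        map_zero, add_zero, evalAt_pow (hcocy c) hgd]
      exact Finset.sum_eq_zero fun j _ => by rw [hcg, map_zero]
    have hF : evalAt A k φ c.1 = 0 := by
      have hτ : φ⁻¹ * g * φ⁻¹⁻¹ ∈ A.inertiaSubgroupIn ℚ :=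
        TameInertia.inertia_normal_in_decomposition (inv_mem hφd) hgI
      have h := evalAt_conj (hcocy c) hφd (MultRed.inertia_mem_decomposition hτ)
      have e : φ * (φ⁻¹ * g * φ⁻¹⁻¹) * φ⁻¹ = g := by group
      rw [e, hI _ hτ, hcg, map_zero, add_zero, eq_comm, sub_eq_zero, eq_comm] at h
      rwa [adAvg_of_fixed hn h] at hav
    exact Subtype.ext (eq_zero_of_inertia_frobenius hA hp (hcocy c) hφ hI hF)
  have : Module.Finite k ↥(Z ⊓ (adFixed ρ g).comap (evalAt A k g)) := Module.Finite.of_injective T hTinj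
  have hZ : Module.finrank k ↥(Z ⊓ (adFixed ρ g).comap (evalAt A k g)) ≤ 1 + Module.finrank k V := by
    refine (LinearMap.finrank_le_finrank_of_injective hTinj).trans ?_
    rw [Module.finrank_prod]
    omega
  let π : ↥(Z ⊓ (adFixed ρ g).comap (evalAt A k g)) →ₗ[k] _ := (adCoboundaries A ρ).mkQ ∘ₗ (Submodule.subtype (Z ⊓ (adFixed ρ g).comap (evalAt A k g)))
  have hrange : LinearMap.range π = Z.map (adCoboundaries A ρ).mkQ := by
    refine le_antisymm ?_ ?_
    · rintro _ ⟨c, rfl⟩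
      exact ⟨c.1, c.2.1, rfl⟩
    · rintro _ ⟨c, hc, rfl⟩
      set X : Matrix (Fin 2) (Fin 2) k := (n : k)⁻¹ •
        ∑ i ∈ Finset.range n, ∑ j ∈ Finset.range i, adMap ρ (g ^ j) (evalAt A k g c) with hX
      have hXtr : X.trace = 0 := by simp [hX, trace_adMap, trace_evalAt (hZle hc)]
      have hDX : adMap ρ g X - X = adAvg ρ g n (evalAt A k g c) - evalAt A k g c := by
        rw [hX, map_smul, ← smul_sub, map_sum, ← Finset.sum_sub_distrib, adAvg_apply]
        have : ∀ i, adMap ρ g (∑ j ∈ Finset.range i, adMap ρ (g ^ j) (evalAt A k g c)) -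
            ∑ j ∈ Finset.range i, adMap ρ (g ^ j) (evalAt A k g c) =
              adMap ρ (g ^ i) (evalAt A k g c) - evalAt A k g c := fun i => by
          rw [sub_eq_sub_iff_add_eq_add, adMap_telescope, add_comm]
        simp only [this, Finset.sum_sub_distrib, Finset.sum_const, Finset.card_range, smul_sub,
          ← Nat.cast_smul_eq_nsmul k, smul_smul, inv_mul_cancel₀ hn, one_smul]
      have hc' : c + adCobound A ρ X ∈ (Z ⊓ (adFixed ρ g).comap (evalAt A k g)) := by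
        have h1 : c + adCobound A ρ X ∈ Z := add_mem hc (hZB X hXtr)
        refine ⟨h1, ?_⟩
        show evalAt A k g (c + adCobound A ρ X) ∈ adFixed ρ g
        have : evalAt A k g (c + adCobound A ρ X) = adAvg ρ g n (evalAt A k g c) := by
          rw [map_add, evalAt_apply hgd (adCobound A ρ X), adCobound_apply, hDX,
            add_sub_cancel]
        rw [this]
        exact adAvg_mem hg (trace_evalAt (hZle hc) g)
      refine ⟨⟨_, hc'⟩, ?_⟩
      show Submodule.Quotient.mk (c + adCobound A ρ X) = Submodule.Quotient.mk c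
      rw [Submodule.Quotient.eq, add_sub_cancel_left]
      exact ⟨X, hXtr, fun σ => rfl⟩
  let δ : V →ₗ[k] ↥(Z ⊓ (adFixed ρ g).comap (evalAt A k g)) := (adCobound A ρ ∘ₗ V.subtype).codRestrict (Z ⊓ (adFixed ρ g).comap (evalAt A k g)) fun X => by
    refine ⟨hZB _ X.2.1, ?_⟩
    show evalAt A k g (adCobound A ρ X.1) ∈ adFixed ρ g
    rw [evalAt_apply hgd, adCobound_apply, X.2.2, sub_self]
    exact zero_mem _
  have hδ : LinearMap.range δ ≤ LinearMap.ker π := by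
    rintro _ ⟨X, rfl⟩
    exact (Submodule.Quotient.mk_eq_zero _).mpr ⟨X.1, X.2.1, fun σ => rfl⟩
  let incl : LinearMap.ker δ →ₗ[k] adInvariants A ρ :=
    (V.subtype ∘ₗ (LinearMap.ker δ).subtype).codRestrict _ fun X => by
      refine ⟨X.1.2.1, fun σ => ?_⟩
      have h := congrFun (congrArg Subtype.val (LinearMap.mem_ker.mp X.2)) σ
      exact (adMap_eq_self_iff (ρ := ρ) (σ : G_ℚ) _).mp (sub_eq_zero.mp h)
  have hincl : Function.Injective incl := fun a b h =>
    Subtype.ext (Subtype.ext (congrArg (fun x : adInvariants A ρ => (x : Matrix (Fin 2) (Fin 2) k)) h))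
  have hk := LinearMap.finrank_le_finrank_of_injective hincl
  have h1 := LinearMap.finrank_range_add_finrank_ker δ
  have h2 := LinearMap.finrank_range_add_finrank_ker π
  have h3 := Submodule.finrank_mono hδ
  rw [← hrange]
  exact ⟨Module.Finite.range π, by omega⟩

/-- **Counting**, for all cocycles. -/
theorem finrank_adClasses_le_of_line (hp : p.Prime) (hA : A.LiesOverPrime p)
    (htriv : ∀ n ∈ N, ρ n = 1)
    (hcont : ∃ F : IntermediateField ℚ Ω, FiniteDimensional ℚ F ∧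
      ∀ σ ∈ F.fixingSubgroup, ρ σ = 1)
    {g : G_ℚ} (hgI : g ∈ A.inertiaSubgroupIn ℚ) {n : ℕ} (hn : (n : k) ≠ 0) (hg : ρ g ^ n = 1)
    (S : Set G_ℚ) (hgen : ∀ σ ∈ A.inertiaSubgroupIn ℚ, ∃ i : ℕ, ∃ s ∈ S,
      s ∈ A.inertiaSubgroupIn ℚ ∧ σ = g ^ i * s)
    (hgn : g ^ n ∈ S) {φ : G_ℚ} (hφ : A.IsFrobeniusAt φ p)
    {M : Type*} [AddCommGroup M] [Module k M]
    (L : adNormalised A N ρ g →ₗ[k] M)
    (hfd : Module.Finite k (LinearMap.range L))
    (hline : Module.finrank k (LinearMap.range L) ≤ 1)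
    (hker : ∀ c : adNormalised A N ρ g, L c = 0 →
      adAvg ρ g n (evalAt A k φ c.1) = 0 → ∀ s ∈ S, evalAt A k s c.1 = 0) :
    FiniteDimensional k (adClasses A N ρ) ∧
      Module.finrank k (adClasses A N ρ) ≤ Module.finrank k (adInvariants A ρ) + 1 :=
  finrank_map_le_of_line hp hA le_rfl
    (fun X _ => adCobound_mem_cocycles htriv hcont X) hgI hn hg S hgen hgn hφ L hfd hline hker

end Fermat.Agent.FlatJ0
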