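import Fermat.Agent.FlatJ0.Cond
import Mathlib.Data.Matrix.Basic
import Mathlib.LinearAlgebra.Matrix.Trace
import Mathlib.LinearAlgebra.Dimension.Finrank

/-!
# Trace-zero adjoint cocycles of the decomposition group that vanish on a subgroup
-/

noncomputable section

namespace Fermat.Agent.FlatJ0

local notation "Ω" => AlgebraicClosure ℚ
local notation "G_ℚ" => (AlgebraicClosure ℚ) ≃ₐ[ℚ] (AlgebraicClosure ℚ)

variable {k : Type*} [Field k] (A : ValuationSubring Ω) (N : Subgroup G_ℚ)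
  (ρ : G_ℚ →* Matrix (Fin 2) (Fin 2) k)

/-- `N` contains the inertia elements fixing some finite extension of `ℚ`. -/
def IsOpenInInertia : Prop :=
  ∃ F : IntermediateField ℚ Ω, FiniteDimensional ℚ F ∧
    ∀ σ ∈ A.inertiaSubgroupIn ℚ, σ ∈ F.fixingSubgroup → σ ∈ N

/-- Continuous trace-zero cocycles `c` of the decomposition group at `A` in the adjoint of `ρ`
vanishing on `N` (the deformation `(1 + εc)ρ` is trivial on `N` when `ρ` is). -/
def adCocycles : Submodule k (↥(A.decompositionSubgroup ℚ) → Matrix (Fin 2) (Fin 2) k) where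
  carrier := {c | (∀ σ τ, c (σ * τ) = c σ + ρ σ * c τ * ρ (σ⁻¹ : G_ℚ)) ∧ (∀ σ, (c σ).trace = 0) ∧
    (∀ σ : ↥(A.decompositionSubgroup ℚ), (σ : G_ℚ) ∈ N → c σ = 0) ∧
    ∃ F : IntermediateField ℚ Ω, FiniteDimensional ℚ F ∧
      ∀ σ : ↥(A.decompositionSubgroup ℚ), (σ : G_ℚ) ∈ F.fixingSubgroup → c σ = 0}
  zero_mem' := ⟨fun σ τ => by simp, fun σ => by simp, fun σ _ => rfl,
    ⊥, inferInstance, fun σ _ => rfl⟩
  add_mem' := by
    rintro a b ⟨ha1, ha2, ha3, F, hF, ha4⟩ ⟨hb1, hb2, hb3, F', hF', hb4⟩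
    refine ⟨fun σ τ => ?_, fun σ => ?_, fun σ hσ => ?_, F ⊔ F',
      IntermediateField.finiteDimensional_sup F F', fun σ hσ => ?_⟩
    · simp only [Pi.add_apply, ha1, hb1, Matrix.mul_add, Matrix.add_mul]; abel
    · simp [ha2, hb2]
    · simp [ha3 σ hσ, hb3 σ hσ]
    · simp [ha4 σ (IntermediateField.fixingSubgroup_antitone le_sup_left hσ),
        hb4 σ (IntermediateField.fixingSubgroup_antitone le_sup_right hσ)]
  smul_mem' := by
    rintro t a ⟨ha1, ha2, ha3, F, hF, ha4⟩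
    refine ⟨fun σ τ => ?_, fun σ => ?_, fun σ hσ => ?_, F, hF, fun σ hσ => ?_⟩
    · simp [ha1, smul_add]
    · simp [ha2]
    · simp [ha3 σ hσ]
    · simp [ha4 σ hσ]

/-- Trace-zero coboundaries. -/
def adCoboundaries : Submodule k (↥(A.decompositionSubgroup ℚ) → Matrix (Fin 2) (Fin 2) k) where
  carrier := {c | ∃ X : Matrix (Fin 2) (Fin 2) k, X.trace = 0 ∧
    ∀ σ : ↥(A.decompositionSubgroup ℚ), c σ = ρ σ * X * ρ (σ⁻¹ : G_ℚ) - X}
  zero_mem' := ⟨0, by simp, fun σ => by simp⟩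
  add_mem' := by
    rintro a b ⟨X, hX, ha⟩ ⟨Y, hY, hb⟩
    refine ⟨X + Y, by simp [hX, hY], fun σ => ?_⟩
    simp only [Pi.add_apply, ha, hb, Matrix.mul_add, Matrix.add_mul]; abel
  smul_mem' := by
    rintro t a ⟨X, hX, ha⟩
    exact ⟨t • X, by simp [hX], fun σ => by simp [ha, smul_sub]⟩

/-- Trace-zero invariants of the decomposition group: `H⁰(G_p, ad⁰ρ)`. -/
def adInvariants : Submodule k (Matrix (Fin 2) (Fin 2) k) where
  carrier := {X | X.trace = 0 ∧ ∀ σ : ↥(A.decompositionSubgroup ℚ), ρ σ * X = X * ρ σ}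
  zero_mem' := ⟨by simp, fun σ => by simp⟩
  add_mem' := by
    rintro X Y ⟨hX, hX'⟩ ⟨hY, hY'⟩
    exact ⟨by simp [hX, hY], fun σ => by rw [Matrix.mul_add, Matrix.add_mul, hX', hY']⟩
  smul_mem' := by
    rintro t X ⟨hX, hX'⟩
    exact ⟨by simp [hX], fun σ => by simp [hX']⟩

/-- The classes of the cocycles vanishing on `N`. -/
def adClasses : Submodule k
    ((↥(A.decompositionSubgroup ℚ) → Matrix (Fin 2) (Fin 2) k) ⧸ adCoboundaries A ρ) :=
  (adCocycles A N ρ).map (adCoboundaries A ρ).mkQ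

end Fermat.Agent.FlatJ0
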