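import Fermat.Agent.FlatJ0.Ramif.Perturb
import Fermat.Agent.FlatJ0.Ramif.Quotient
import Fermat.Agent.FlatJ0.Ramif.Jump
import Fermat.Agent.FlatJ0.Tangent.Cocycle

/-!
# The level cut out by all cocycles vanishing on `N`
-/

noncomputable section

namespace Fermat.Agent.FlatJ0

open EllLocal (resFun kummerRes)

local notation "Ω" => AlgebraicClosure ℚ
local notation "G_ℚ" => (AlgebraicClosure ℚ) ≃ₐ[ℚ] (AlgebraicClosure ℚ)

variable {k : Type*} [Field k] {A : ValuationSubring Ω} {p : ℕ} {N : Subgroup G_ℚ}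
  {ρ : G_ℚ →* Matrix (Fin 2) (Fin 2) k}

lemma map_inv_eq_one {σ : G_ℚ} (hσ : ρ σ = 1) : ρ σ⁻¹ = 1 := by
  calc ρ σ⁻¹ = ρ σ⁻¹ * ρ σ := by rw [hσ, mul_one]
    _ = 1 := by rw [← map_mul, inv_mul_cancel, map_one]

lemma map_conj_eq_one {σ τ : G_ℚ} (hτ : ρ τ = 1) : ρ (σ * τ * σ⁻¹) = 1 := by
  rw [map_mul, map_mul, hτ, mul_one, ← map_mul, mul_inv_cancel, map_one]

lemma evalAt_conj_of_eq_one {c : ↥(A.decompositionSubgroup ℚ) → Matrix (Fin 2) (Fin 2) k}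
    (hc : c ∈ adCocycles A N ρ) {σ τ : G_ℚ} (hσ : σ ∈ A.decompositionSubgroup ℚ)
    (hτ : τ ∈ A.decompositionSubgroup ℚ) (h1 : ρ τ = 1) :
    evalAt A k (σ * τ * σ⁻¹) c = adMap ρ σ (evalAt A k τ c) := by
  rw [evalAt_conj hc hσ hτ, adMap_of_eq_one (map_conj_eq_one h1), add_sub_cancel_left]

lemma exists_natCast_of_pow_eq_self {F : Type*} [Field F] {p : ℕ} [Fact p.Prime] [CharP F p]
    {x : F} (hx : x ^ p = x) : ∃ m : ℕ, x = m := by
  have h := (Subfield.mem_bot_iff_pow_eq_self F p).mpr hx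
  rw [← ZMod.fieldRange_castHom_eq_bot p] at h
  obtain ⟨z, rfl⟩ := h
  exact ⟨z.val, by rw [← map_natCast (ZMod.castHom dvd_rfl F), ZMod.natCast_zmod_val]⟩

/-- The inertia elements killed by `ρ` and by every cocycle vanishing on `N`. -/
def cutKer (A : ValuationSubring Ω) (N : Subgroup G_ℚ) (ρ : G_ℚ →* Matrix (Fin 2) (Fin 2) k) :
    Subgroup G_ℚ where
  carrier := {σ | σ ∈ A.inertiaSubgroupIn ℚ ∧ ρ σ = 1 ∧
    ∀ c ∈ adCocycles A N ρ, evalAt A k σ c = 0}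
  one_mem' := ⟨one_mem _, map_one ρ, fun _ hc => evalAt_one hc⟩
  mul_mem' {a b} ha hb := ⟨mul_mem ha.1 hb.1, by rw [map_mul, ha.2.1, hb.2.1, one_mul],
    fun c hc => by
      rw [evalAt_mul hc (MultRed.inertia_mem_decomposition ha.1)
        (MultRed.inertia_mem_decomposition hb.1), ha.2.2 c hc, hb.2.2 c hc, map_zero, add_zero]⟩
  inv_mem' {a} ha := ⟨inv_mem ha.1, map_inv_eq_one ha.2.1, fun c hc => by
    rw [evalAt_inv hc (MultRed.inertia_mem_decomposition ha.1), ha.2.2 c hc, map_zero, neg_zero]⟩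

lemma cutKer_le : cutKer A N ρ ≤ A.inertiaSubgroupIn ℚ := fun _ h => h.1

lemma le_cutKer (hle : N ≤ A.inertiaSubgroupIn ℚ) (htriv : ∀ n ∈ N, ρ n = 1) :
    N ≤ cutKer A N ρ := fun σ hσ =>
  ⟨hle hσ, htriv σ hσ, fun _ hc => evalAt_of_mem hc (MultRed.inertia_mem_decomposition (hle hσ)) hσ⟩

lemma conj_mem_cutKer {φ : G_ℚ} (hφ : φ ∈ A.decompositionSubgroup ℚ) {σ : G_ℚ}
    (hσ : σ ∈ cutKer A N ρ) : φ * σ * φ⁻¹ ∈ cutKer A N ρ :=
  ⟨TameInertia.inertia_normal_in_decomposition hφ hσ.1, map_conj_eq_one hσ.2.1, fun c hc => by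
    rw [evalAt_conj_of_eq_one hc hφ (MultRed.inertia_mem_decomposition hσ.1) hσ.2.1, hσ.2.2 c hc,
      map_zero]⟩

/-- A `p`-th power of an element killed by `ρ` lies in the cut kernel. -/
lemma pow_char_mem_cutKer [CharP k p] {σ : G_ℚ} (hσ : σ ∈ A.inertiaSubgroupIn ℚ)
    (h1 : ρ σ = 1) : σ ^ p ∈ cutKer A N ρ := by
  refine ⟨pow_mem hσ p, by rw [map_pow, h1, one_pow], fun c hc => ?_⟩
  rw [evalAt_pow hc (MultRed.inertia_mem_decomposition hσ),
    Finset.sum_congr rfl fun i _ => adMap_of_eq_one (by rw [map_pow, h1, one_pow]) _,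
    Finset.sum_const, Finset.card_range, ← Nat.cast_smul_eq_nsmul k, CharP.cast_eq_zero,
    zero_smul]

/-- A level above `N` with its uniformiser inherits the bound. -/
theorem exists_level_bound (h : IsOver A p) (hle : N ≤ A.inertiaSubgroupIn ℚ)
    (hnormal : ∀ g ∈ A.inertiaSubgroupIn ℚ, ∀ n ∈ N, g * n * g⁻¹ ∈ N)
    (hopen : IsOpenInInertia A N)
    (hbound : ∀ γ : ℚ, (p : ℚ) / (p - 1) < γ → HasBound A p N γ)
    {M : Subgroup G_ℚ} (hM : M ≤ A.inertiaSubgroupIn ℚ)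
    (hMn : ∀ g ∈ A.inertiaSubgroupIn ℚ, ∀ n ∈ M, g * n * g⁻¹ ∈ M) (hNM : N ≤ M) :
    ∃ u : Unif A p M, ∀ y₀ ∈ u.roots, y₀ ≠ u.π →
      (∑ y ∈ u.roots.erase u.π, ord A p (y - u.π)) + ord A p (y₀ - u.π) ≤
        (p : ℚ) / (p - 1) + 2 / u.e := by
  obtain ⟨uN⟩ := exists_unif h hle hnormal hopen
  obtain ⟨F, hF, hF'⟩ := hopen
  obtain ⟨u⟩ := exists_unif h hM hMn ⟨F, hF, fun σ hσ hσF => hNM (hF' σ hσ hσF)⟩
  refine ⟨u, fun y₀ hy₀ hne => Unif.sum_le_quotient uN u hNM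
    (fun x₀ hx₀ hx => uN.sum_le_of_forall_hasBound ?_ hbound hx₀ hx) hy₀ hne⟩
  have h2 : (1 : ℚ) < p := by exact_mod_cast h.prime.one_lt
  rw [le_div_iff₀ (by linarith)]
  linarith

namespace Unif

variable {M : Subgroup G_ℚ} (u : Unif A p M)

open Classical in
/-- The conjugates of `π` under a subgroup. -/
def subRoots (K : Subgroup G_ℚ) : Finset Ω := u.roots.filter fun x => ∃ σ ∈ K, σ u.π = x

lemma mem_subRoots {K : Subgroup G_ℚ} (hK : K ≤ A.inertiaSubgroupIn ℚ) {x : Ω} :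
    x ∈ u.subRoots K ↔ ∃ σ ∈ K, σ u.π = x := by
  classical
  simp only [subRoots, Finset.mem_filter, and_iff_right_iff_imp]
  rintro ⟨σ, hσ, rfl⟩
  exact u.mem_roots.mpr ⟨σ, hK hσ, rfl⟩

lemma π_mem_subRoots {K : Subgroup G_ℚ} (hK : K ≤ A.inertiaSubgroupIn ℚ) :
    u.π ∈ u.subRoots K :=
  (u.mem_subRoots hK).mpr ⟨1, one_mem K, rfl⟩

/-- If `g` and `K` generate inertia and `g ^ n ∈ K` then `e ≤ n |K π|`. -/
lemma e_le_mul_card {K : Subgroup G_ℚ} (hK : K ≤ A.inertiaSubgroupIn ℚ) {g : G_ℚ} {n : ℕ}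
    (hn : 0 < n) (hgn : g ^ n ∈ K)
    (hgen : ∀ σ ∈ A.inertiaSubgroupIn ℚ, ∃ i : ℕ, ∃ s ∈ K, σ = g ^ i * s) :
    u.e ≤ n * (u.subRoots K).card := by
  classical
  have hsub : u.roots ⊆ (Finset.range n).biUnion fun i => (u.subRoots K).image (g ^ i) := by
    intro x hx
    obtain ⟨σ, hσ, rfl⟩ := u.mem_roots.mp hx
    obtain ⟨i, s, hs, rfl⟩ := hgen σ hσ
    refine Finset.mem_biUnion.mpr ⟨i % n, Finset.mem_range.mpr (Nat.mod_lt i hn),
      Finset.mem_image.mpr ⟨((g ^ n) ^ (i / n) * s) u.π,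
        (u.mem_subRoots hK).mpr ⟨_, mul_mem (pow_mem hgn _) hs, rfl⟩, ?_⟩⟩
    rw [← AlgEquiv.mul_apply, ← mul_assoc, ← pow_mul, ← pow_add, Nat.mod_add_div]
  have := (Finset.card_le_card hsub).trans
    (Finset.card_biUnion_le_card_mul _ _ _ fun i _ => Finset.card_image_le)
  rwa [u.card_roots, Finset.card_range] at this

/-- Lower bound on the total sum from the part over a subgroup. -/
lemma sum_ge {K : Subgroup G_ℚ} (hK : K ≤ A.inertiaSubgroupIn ℚ) :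
    ((u.e : ℚ) - (u.subRoots K).card) / u.e +
        ∑ x ∈ (u.subRoots K).erase u.π, ord A p (x - u.π) ≤
      ∑ x ∈ u.roots.erase u.π, ord A p (x - u.π) := by
  classical
  have hsub : u.subRoots K ⊆ u.roots := Finset.filter_subset _ _
  have hsub' : (u.subRoots K).erase u.π ⊆ u.roots.erase u.π := Finset.erase_subset_erase _ hsub
  rw [← Finset.sum_sdiff hsub']
  refine add_le_add ?_ le_rfl
  have hcard : ((u.roots.erase u.π) \ (u.subRoots K).erase u.π).card =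
      u.e - (u.subRoots K).card := by
    rw [Finset.card_sdiff_of_subset hsub', Finset.card_erase_of_mem u.π_mem_roots,
      Finset.card_erase_of_mem (u.π_mem_subRoots hK), u.card_roots]
    have := Finset.card_pos.mpr ⟨_, u.π_mem_subRoots hK⟩
    omega
  refine le_trans (le_of_eq ?_) (Finset.card_nsmul_le_sum _ _ (1 / (u.e : ℚ)) fun x hx => ?_)
  · rw [hcard, nsmul_eq_mul, Nat.cast_sub (by
      rw [← u.card_roots]; exact Finset.card_le_card hsub), mul_one_div]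
  · obtain ⟨hx, -⟩ := Finset.mem_sdiff.mp hx
    obtain ⟨hne, hx⟩ := Finset.mem_erase.mp hx
    obtain ⟨σ, hσ, rfl⟩ := u.mem_roots.mp hx
    have := (u.wild_zero hσ).resolve_left (sub_ne_zero.mpr hne)
    rwa [Nat.cast_zero, zero_add] at this

/-- An element whose tame character has order dividing `m` has a `p`-power multiple wild. -/
lemma order_kummerRes {g : G_ℚ} (hg : g ∈ A.inertiaSubgroupIn ℚ) {n s : ℕ} (hn : ¬ p ∣ n)
    (hpow : ∀ m : ℕ, (g ^ (n * m)) ^ p ^ s ∈ M)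
    (hexact : ∀ j : ℕ, g ^ j ∈ M → n ∣ j) {j : ℕ} (hj : kummerRes A u.π g ^ j = 1) : n ∣ j := by
  have h1 : u.Wild 1 (g ^ j) := by
    rw [u.wild_one_iff (pow_mem hg j), u.kummerRes_pow hg, hj]
  have hmem : (g ^ j) ^ p ^ s ∈ M := by
    refine u.mem_of_pow_mem (pow_mem (pow_mem hg j) _)
      (u.wild_pow (pow_mem hg j) h1 _) hn ?_
    have := hpow j
    rw [← pow_mul] at this
    rwa [← pow_mul, ← pow_mul, show j * (p ^ s * n) = n * j * p ^ s by ring]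
  rw [← pow_mul] at hmem
  have hco : n.Coprime (p ^ s) :=
    Nat.Coprime.pow_right s ((u.isOver.prime.coprime_iff_not_dvd.mpr hn).symm)
  exact hco.dvd_of_dvd_mul_right (hexact _ hmem)

end Unif

end Fermat.Agent.FlatJ0
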