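import Fermat.Agent.FlatJ0.Tangent.OrdinaryJump
import Fermat.Agent.FlatJ0.Tangent.Generator
import Fermat.Agent.Frobenius.Exists

/-!
# Tangent bound, ordinary shape

In coordinates where the tame generator is diagonal, a normalised cocycle has a single nonzero
entry on the wild part; that entry at one element and the diagonal entry at Frobenius determine
the cocycle.
-/

noncomputable section

namespace Fermat.Agent.FlatJ0

open EllLocal (resFun kummerRes)

local notation "Ω" => AlgebraicClosure ℚ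
local notation "G_ℚ" => (AlgebraicClosure ℚ) ≃ₐ[ℚ] (AlgebraicClosure ℚ)

variable {k : Type*} [Field k] {A : ValuationSubring Ω} {p : ℕ} {N : Subgroup G_ℚ}
  {ρ : G_ℚ →* Matrix (Fin 2) (Fin 2) k}

/-- Change of coordinates by the upper unipotent matrix with corner `c`. -/
def cornerConj (c : k) : Module.End k (Matrix (Fin 2) (Fin 2) k) :=
  LinearMap.mulRight k !![1, c; 0, 1] ∘ₗ LinearMap.mulLeft k !![1, -c; 0, 1]

lemma cornerConj_apply (c : k) (X : Matrix (Fin 2) (Fin 2) k) :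
    cornerConj c X = !![1, -c; 0, 1] * X * !![1, c; 0, 1] :=
  rfl

lemma corner_mul_corner (c : k) :
    !![1, c; 0, 1] * !![1, -c; 0, 1] = (1 : Matrix (Fin 2) (Fin 2) k) := by
  ext i j
  fin_cases i <;> fin_cases j <;> simp [Matrix.mul_apply, Fin.sum_univ_two]

lemma cornerConj_adMap (c : k) (σ : G_ℚ) (X : Matrix (Fin 2) (Fin 2) k) :
    cornerConj c (adMap ρ σ X) =
      cornerConj c (ρ σ) * cornerConj c X * cornerConj c (ρ σ⁻¹) := by
  simp only [cornerConj_apply, adMap_apply]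
  calc !![1, -c; 0, 1] * (ρ σ * X * ρ σ⁻¹) * !![1, c; 0, 1]
      = !![1, -c; 0, 1] * ρ σ * (!![1, c; 0, 1] * !![1, -c; 0, 1]) * X *
          (!![1, c; 0, 1] * !![1, -c; 0, 1]) * ρ σ⁻¹ * !![1, c; 0, 1] := by
        simp only [corner_mul_corner, mul_one, mul_assoc]
    _ = _ := by simp only [mul_assoc]

lemma cornerConj_unipotent (c b : k) :
    cornerConj c (!![1, b; 0, 1] : Matrix (Fin 2) (Fin 2) k) = !![1, b; 0, 1] := by
  ext i j
  fin_cases i <;> fin_cases j <;> simp [cornerConj_apply, Matrix.mul_apply, Fin.sum_univ_two]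

lemma cornerConj_injective {c : k} {X : Matrix (Fin 2) (Fin 2) k} (h : cornerConj c X = 0) :
    X = 0 := by
  calc X = (!![1, c; 0, 1] * !![1, -c; 0, 1]) * X * (!![1, c; 0, 1] * !![1, -c; 0, 1]) := by
        rw [corner_mul_corner, one_mul, mul_one]
    _ = !![1, c; 0, 1] * cornerConj c X * !![1, -c; 0, 1] := by
        simp only [cornerConj_apply, mul_assoc]
    _ = 0 := by rw [h, mul_zero, zero_mul]

lemma trace_cornerConj (c : k) (X : Matrix (Fin 2) (Fin 2) k) :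
    (cornerConj c X).trace = X.trace := by
  rw [cornerConj_apply, Matrix.trace_mul_cycle, corner_mul_corner, one_mul]

/-- Conjugation of a trace-zero matrix by a unipotent matrix. -/
lemma unipotent_conj_entries (b : k) (X : Matrix (Fin 2) (Fin 2) k) (hX : X.trace = 0) :
    (!![1, b; 0, 1] * X * !![1, -b; 0, 1]) 0 0 = X 0 0 + b * X 1 0 ∧
    (!![1, b; 0, 1] * X * !![1, -b; 0, 1]) 0 1 = X 0 1 - 2 * b * X 0 0 - b ^ 2 * X 1 0 ∧
    (!![1, b; 0, 1] * X * !![1, -b; 0, 1]) 1 0 = X 1 0 := by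
  rw [Matrix.trace_fin_two] at hX
  have h11 : X 1 1 = -X 0 0 := eq_neg_of_add_eq_zero_right hX
  conv in (occs := *) !![1, b; 0, 1] * X => all_goals rw [Matrix.eta_fin_two X, Matrix.mul_fin_two]
  rw [Matrix.mul_fin_two, h11]
  refine ⟨by simp, ?_, by simp⟩
  simp
  ring

/-- Conjugation by a diagonal matrix. -/
lemma diagonal_conj_entries (α β : k) (X : Matrix (Fin 2) (Fin 2) k) :
    (!![α, 0; 0, 1] * X * !![β, 0; 0, 1]) 0 0 = α * X 0 0 * β ∧
    (!![α, 0; 0, 1] * X * !![β, 0; 0, 1]) 0 1 = α * X 0 1 ∧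
    (!![α, 0; 0, 1] * X * !![β, 0; 0, 1]) 1 0 = X 1 0 * β := by
  conv in (occs := *) !![α, 0; 0, 1] * X =>
    all_goals rw [Matrix.eta_fin_two X, Matrix.mul_fin_two]
  rw [Matrix.mul_fin_two]
  refine ⟨?_, ?_, ?_⟩ <;> simp

variable [CharP k p]

/-- **Tangent bound, ordinary shape**, with a chosen generator. -/
theorem IsOrdGen.finrank_map_le {g : G_ℚ} (hρ : IsOrdShape A p ρ) (hg : IsOrdGen A p ρ g)
    (h : IsOver A p) (hp : 3 ≤ p) (hN : IsBoundKernel A p N ρ)
    {Z : Submodule k (↥(A.decompositionSubgroup ℚ) → Matrix (Fin 2) (Fin 2) k)}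
    (hZle : Z ≤ adCocycles A N ρ) (hZB : ∀ X, X.trace = 0 → adCobound A ρ X ∈ Z)
    (hlow : p = 3 → ∀ c ∈ Z, ∀ σ ∈ hρ.ker, evalAt A k σ c 1 0 = 0) :
    FiniteDimensional k (Z.map (adCoboundaries A ρ).mkQ) ∧
      Module.finrank k (Z.map (adCoboundaries A ρ).mkQ) ≤
        Module.finrank k (adInvariants A ρ) + 1 := by
  classical
  have : Fact p.Prime := ⟨h.prime⟩
  have hK := hρ.ker_le
  obtain ⟨u, hbd⟩ := exists_level_bound h hN.le hN.normal hN.isOpen hN.bound cutKer_le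
    (fun s hs n hn => conj_mem_cutKer (MultRed.inertia_mem_decomposition hs) hn)
    (le_cutKer hN.le hN.trivial)
  have hwild := IsOrdGen.wild hρ hg hp u hbd
  obtain ⟨φ, hφ⟩ := Frobenius.exists_isFrobeniusAt_qbar h.prime h.liesOver
  have hφd := hφ.mem_decompositionSubgroup
  have hgd := MultRed.inertia_mem_decomposition hg.mem
  obtain ⟨w, hw, hgenw⟩ := u.exists_frobenius_generator le_rfl hρ.ker hK
    (fun σ hσ => (hwild σ hσ).1) (fun σ hσ => (hwild σ hσ).2) hφ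
    (fun n hn => conj_mem_cutKer hφd hn) (fun σ hσ => hρ.conj_mem_ker hφd hσ)
  have hn : ((p - 1 : ℕ) : k) ≠ 0 := fun e => by
    have := Nat.le_of_dvd (by omega) ((CharP.cast_eq_zero_iff k p _).mp e)
    omega
  obtain ⟨α, hα⟩ : ∃ α, α = ρ g 0 0 := ⟨_, rfl⟩
  have hαp : IsPrimitiveRoot α (p - 1) := hα ▸ hg.primitive
  have hα1 : α ≠ 1 := hαp.ne_one (by omega)
  have hα0 : α ≠ 0 := hαp.ne_zero (by omega)
  have hα2 : p ≠ 3 → α * α ≠ 1 := fun h3 e => by
    have := Nat.le_of_dvd two_pos (hαp.dvd_of_pow_eq_one 2 (by rwa [sq]))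
    omega
  have h1α : 1 - α ≠ 0 := sub_ne_zero.mpr hα1.symm
  obtain ⟨cc, hcc⟩ : ∃ cc, cc = ρ g 0 1 / (1 - α) := ⟨_, rfl⟩
  -- coordinates
  have hgmat : cornerConj cc (ρ g) = !![α, 0; 0, 1] := by
    have e : ρ g = !![α, ρ g 0 1; 0, 1] := by
      ext i j
      fin_cases i <;> fin_cases j <;> simp [hα, hρ.lower g hgd, hρ.unram g hg.mem]
    rw [e, cornerConj_apply]
    ext i j
    fin_cases i <;> fin_cases j <;> simp [Matrix.mul_apply, Fin.sum_univ_two]
    rw [hcc]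
    field_simp
    ring
  have hginv : cornerConj cc (ρ g⁻¹) = !![α⁻¹, 0; 0, 1] := by
    have e : cornerConj cc (ρ g) * cornerConj cc (ρ g⁻¹) = 1 := by
      rw [cornerConj_apply, cornerConj_apply]
      calc _ = !![1, -cc; 0, 1] * ρ g * (!![1, cc; 0, 1] * !![1, -cc; 0, 1]) * ρ g⁻¹ *
            !![1, cc; 0, 1] := by simp only [mul_assoc]
        _ = !![1, -cc; 0, 1] * (ρ g * ρ g⁻¹) * !![1, cc; 0, 1] := by
            rw [corner_mul_corner, mul_one, mul_assoc (!![1, -cc; 0, 1]) (ρ g) (ρ g⁻¹)]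
        _ = 1 := by
            rw [← map_mul, mul_inv_cancel, map_one, mul_one]
            ext i j
            fin_cases i <;> fin_cases j <;> simp [Matrix.mul_apply, Fin.sum_univ_two]
    rw [hgmat] at e
    calc cornerConj cc (ρ g⁻¹)
        = (!![α⁻¹, 0; 0, 1] * !![α, 0; 0, 1]) * cornerConj cc (ρ g⁻¹) := by
          rw [show (!![α⁻¹, 0; 0, 1] * !![α, 0; 0, 1] : Matrix (Fin 2) (Fin 2) k) = 1 by
            ext i j
            fin_cases i <;> fin_cases j <;> simp [Matrix.mul_apply, Fin.sum_univ_two, hα0],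
            one_mul]
      _ = !![α⁻¹, 0; 0, 1] := by rw [mul_assoc, e, mul_one]
  let C : G_ℚ → (↥(A.decompositionSubgroup ℚ) → Matrix (Fin 2) (Fin 2) k) →ₗ[k]
      Matrix (Fin 2) (Fin 2) k := fun σ => cornerConj cc ∘ₗ evalAt A k σ
  have hCtr : ∀ c ∈ adCocycles A N ρ, ∀ σ, (C σ c).trace = 0 := fun c hc σ =>
    (trace_cornerConj cc _).trans (trace_evalAt hc σ)
  have hKinv : ∀ σ ∈ hρ.ker, ρ σ⁻¹ 0 1 = -ρ σ 0 1 := fun σ hσ => by
    have := IsOrdShape.mul_corner (ρ := ρ) (σ := σ) (τ := σ⁻¹)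
    rw [mul_inv_cancel, map_one, Matrix.one_apply_ne (by decide), hσ.2, one_mul,
      hρ.unram σ⁻¹ (inv_mem hσ.1), mul_one] at this
    exact eq_neg_of_add_eq_zero_left this.symm
  have hAdK : ∀ σ ∈ hρ.ker, ∀ X : Matrix (Fin 2) (Fin 2) k,
      cornerConj cc (adMap ρ σ X) =
        !![1, ρ σ 0 1; 0, 1] * cornerConj cc X * !![1, -ρ σ 0 1; 0, 1] := fun σ hσ X => by
    rw [cornerConj_adMap, hρ.map_ker hσ, hρ.map_ker (inv_mem hσ), hKinv σ hσ,
      cornerConj_unipotent, cornerConj_unipotent]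
    simp
  have hAdg : ∀ X : Matrix (Fin 2) (Fin 2) k,
      cornerConj cc (adMap ρ g X) = !![α, 0; 0, 1] * cornerConj cc X * !![α⁻¹, 0; 0, 1] :=
    fun X => by rw [cornerConj_adMap, hgmat, hginv]
  -- normalised value at `g`
  have hCg : ∀ c : ↥(Z ⊓ (adFixed ρ g).comap (evalAt A k g)), C g c.1 1 0 = 0 ∧ C g c.1 0 1 = 0 := by
    intro c
    have e := congrArg (cornerConj cc) c.2.2.2
    rw [hAdg] at e
    obtain ⟨-, h01, h10⟩ := diagonal_conj_entries α α⁻¹ (cornerConj cc (evalAt A k g c.1))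
    have e1 := congrFun (congrFun e 1) 0
    have e2 := congrFun (congrFun e 0) 1
    rw [h10] at e1
    rw [h01] at e2
    refine ⟨?_, ?_⟩
    · show cornerConj cc (evalAt A k g c.1) 1 0 = 0
      by_contra hne
      exact hα1 (inv_eq_one.mp (mul_left_cancel₀ hne (by rw [e1, mul_one])))
    · show cornerConj cc (evalAt A k g c.1) 0 1 = 0
      by_contra hne
      exact hα1 (mul_right_cancel₀ hne (by rw [e2, one_mul]))
  -- powers
  have hpow : ∀ c ∈ adCocycles A N ρ, ∀ σ ∈ hρ.ker, ∀ m : ℕ,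
      C (σ ^ m) c 1 0 = m * C σ c 1 0 ∧
      (∃ r : k, C (σ ^ m) c 0 0 = m * C σ c 0 0 + r * (ρ σ 0 1 * C σ c 1 0)) ∧
      (ρ σ 0 1 = 0 → C (σ ^ m) c 0 1 = m * C σ c 0 1) := by
    intro c hc σ hσ m
    induction m with
    | zero =>
      have e : C (σ ^ 0) c = 0 := by
        show cornerConj cc (evalAt A k (σ ^ 0) c) = 0
        rw [pow_zero, evalAt_one hc, map_zero]
      rw [e]
      exact ⟨by simp, ⟨0, by simp⟩, by simp⟩
    | succ m ih =>
      obtain ⟨ih1, ⟨r, ih2⟩, ih3⟩ := ih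
      have e : C (σ ^ (m + 1)) c = C (σ ^ m) c +
          !![1, ρ (σ ^ m) 0 1; 0, 1] * C σ c * !![1, -ρ (σ ^ m) 0 1; 0, 1] := by
        show cornerConj cc (evalAt A k (σ ^ (m + 1)) c) = _
        rw [pow_succ, evalAt_mul hc (MultRed.inertia_mem_decomposition (pow_mem hσ.1 m))
          (MultRed.inertia_mem_decomposition hσ.1), map_add, hAdK _ (pow_mem hσ m)]
        rfl
      obtain ⟨h00, h01, h10⟩ := unipotent_conj_entries (ρ (σ ^ m) 0 1) _ (hCtr c hc σ)
      refine ⟨?_, ⟨r + m, ?_⟩, fun hb => ?_⟩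
      · rw [e, Matrix.add_apply, h10, ih1]; push_cast; ring
      · rw [e, Matrix.add_apply, h00, ih2, hρ.corner_pow hσ]; push_cast; ring
      · rw [e, Matrix.add_apply, h01, ih3 hb, hρ.corner_pow hσ, hb]; push_cast; ring
  -- the tame character
  have : CharP (IsLocalRing.ResidueField A) p := EllLocal.charP_kA h.prime h.liesOver
  have horder : ∀ j : ℕ, kummerRes A u.π g ^ j = 1 → p - 1 ∣ j := fun j hj =>
    IsOrdGen.order_eq hρ hg hp u hj
  obtain ⟨m, hm⟩ : ∃ m : ℕ, kummerRes A u.π g = m := by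
    refine exists_natCast_of_pow_eq_self (p := p) ?_
    have e : kummerRes A u.π g ^ (p - 1) = 1 := by
      rw [← u.kummerRes_pow hg.mem, ← u.wild_one_iff (pow_mem hg.mem _)]
      exact (hwild _ (IsOrdGen.pow_mem_ker hρ hg)).1
    have e2 : kummerRes A u.π g ^ (p - 1 + 1) = kummerRes A u.π g := by
      rw [pow_succ, e, one_mul]
    rwa [show p - 1 + 1 = p by omega] at e2
  have hm1 : (m : k) ≠ 1 := fun e => by
    rw [← Nat.cast_one (R := k), CharP.natCast_eq_natCast k p,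
      ← CharP.natCast_eq_natCast (IsLocalRing.ResidueField A) p, ← hm, Nat.cast_one] at e
    have := Nat.le_of_dvd one_pos (horder 1 (by rw [pow_one, e]))
    omega
  -- relation from conjugation by `g`
  have hrel : ∀ σ ∈ hρ.ker, (α - m) * ρ σ 0 1 = 0 ∧ ∀ c : ↥(Z ⊓ (adFixed ρ g).comap (evalAt A k g)),
      C (σ ^ m) c.1 0 0 = C σ c.1 0 0 ∧ C (σ ^ m) c.1 1 0 = α⁻¹ * C σ c.1 1 0 ∧
      (ρ σ 0 1 = 0 → C (σ ^ m) c.1 0 1 = α * C σ c.1 0 1) := by
    intro σ hσ
    have hτ := hρ.conj_mem_ker hgd hσ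
    have h1 := u.theta_conj_inertia hg.mem hσ.1 (hwild σ hσ).1
    rw [pow_one, hm] at h1
    set τ := g * σ * g⁻¹ with hτdef
    have hmem : τ⁻¹ * σ ^ m ∈ hρ.ker := mul_mem (inv_mem hτ) (pow_mem hσ m)
    have hθ : u.theta 1 (τ⁻¹ * σ ^ m) = 0 := by
      have e := u.theta_mul le_rfl hτ.1 h1.1 (hwild _ hmem).1
      rw [mul_inv_cancel_left, u.theta_pow le_rfl hσ.1 (hwild σ hσ).1, h1.2, left_eq_add] at e
      exact e
    obtain ⟨-, hx1, hx2⟩ := (hwild _ hmem).2 hθ
    have hρeq : ρ τ = ρ (σ ^ m) := by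
      calc ρ τ = ρ τ * ρ (τ⁻¹ * σ ^ m) := by rw [hx1, mul_one]
        _ = ρ (σ ^ m) := by rw [← map_mul, mul_inv_cancel_left]
    have hbτ : ρ τ 0 1 = α * ρ σ 0 1 := by
      have h2 := IsOrdShape.mul_corner (ρ := ρ) (σ := g) (τ := σ)
      have h3 := IsOrdShape.mul_corner (ρ := ρ) (σ := τ) (τ := g)
      have e : τ * g = g * σ := by rw [hτdef, inv_mul_cancel_right]
      rw [e, h2, hτ.2, one_mul, hρ.unram g hg.mem, mul_one, hρ.unram σ hσ.1, mul_one, ← hα] at h3
      linear_combination -h3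
    refine ⟨by rw [hρeq, hρ.corner_pow hσ] at hbτ; linear_combination -hbτ, fun c => ?_⟩
    have hC : C (σ ^ m) c.1 = C g c.1 +
        !![α, 0; 0, 1] * C σ c.1 * !![α⁻¹, 0; 0, 1] -
        !![1, ρ τ 0 1; 0, 1] * C g c.1 * !![1, -ρ τ 0 1; 0, 1] := by
      show cornerConj cc (evalAt A k (σ ^ m) c.1) = _
      have e : evalAt A k (σ ^ m) c.1 = evalAt A k τ c.1 := by
        conv_lhs => rw [← mul_inv_cancel_left τ (σ ^ m),
          evalAt_mul (hZle c.2.1) (MultRed.inertia_mem_decomposition hτ.1)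
            (MultRed.inertia_mem_decomposition hmem.1), hx2 c.1 (hZle c.2.1), map_zero, add_zero]
      rw [e, hτdef, evalAt_conj (hZle c.2.1) hgd (MultRed.inertia_mem_decomposition hσ.1), ← hτdef,
        map_sub, map_add, hAdg, hAdK τ hτ]
      rfl
    obtain ⟨d00, d01, d10⟩ := diagonal_conj_entries α α⁻¹ (C σ c.1)
    obtain ⟨u00, u01, u10⟩ := unipotent_conj_entries (ρ τ 0 1) _ (hCtr c.1 (hZle c.2.1) g)
    obtain ⟨g10, g01⟩ := hCg c
    refine ⟨?_, ?_, fun hb => ?_⟩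
    · rw [hC, Matrix.sub_apply, Matrix.add_apply, d00, u00, g10]
      field_simp
      ring
    · rw [hC, Matrix.sub_apply, Matrix.add_apply, d10, u10, g10]; ring
    · rw [hC, Matrix.sub_apply, Matrix.add_apply, d01, u01, g10, g01, hbτ, hb]; ring
  have hdiag : ∀ c : ↥(Z ⊓ (adFixed ρ g).comap (evalAt A k g)), ∀ σ ∈ hρ.ker, C σ c.1 0 0 = 0 ∧
      (α = m → C σ c.1 1 0 = 0) ∧ (α ≠ m → C σ c.1 0 1 = 0) := by
    intro c σ hσ
    obtain ⟨hb, hc⟩ := hrel σ hσ
    obtain ⟨r1, r2, r3⟩ := hc c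
    obtain ⟨p1, ⟨r, p2⟩, p3⟩ := hpow c.1 (hZle c.2.1) σ hσ m
    have hz : α = m → C σ c.1 1 0 = 0 := fun e => by
      rw [p1, ← e] at r2
      have : (α * α - 1) * C σ c.1 1 0 = 0 := by
        have := congrArg (α * ·) r2
        simp only [← mul_assoc, mul_inv_cancel₀ hα0, one_mul] at this
        linear_combination this
      rcases eq_or_ne p 3 with h3 | h3
      · show cornerConj cc (evalAt A k σ c.1) 1 0 = 0
        rw [cornerConj_apply]
        simp only [Matrix.mul_apply, Fin.sum_univ_two]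
        simp [hlow h3 c.1 c.2.1 σ hσ]
      · exact (mul_eq_zero.mp this).resolve_left (sub_ne_zero.mpr (hα2 h3))
    have hb0 : α ≠ m → ρ σ 0 1 = 0 := fun e =>
      (mul_eq_zero.mp hb).resolve_left (sub_ne_zero.mpr e)
    have hbz : ρ σ 0 1 * C σ c.1 1 0 = 0 := by
      rcases eq_or_ne α (m : k) with e | e
      · rw [hz e, mul_zero]
      · rw [hb0 e, zero_mul]
    refine ⟨?_, hz, fun e => ?_⟩
    · rw [p2, hbz, mul_zero, add_zero] at r1
      have : ((m : k) - 1) * C σ c.1 0 0 = 0 := by linear_combination r1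
      exact (mul_eq_zero.mp this).resolve_left (sub_ne_zero.mpr hm1)
    · have r := r3 (hb0 e)
      rw [p3 (hb0 e)] at r
      have : ((m : k) - α) * C σ c.1 0 1 = 0 := by linear_combination r
      exact (mul_eq_zero.mp this).resolve_left (sub_ne_zero.mpr e.symm)
  -- the entry read at `w`
  let ij : Fin 2 × Fin 2 := if α = (m : k) then (0, 1) else (1, 0)
  let L : ↥(Z ⊓ (adFixed ρ g).comap (evalAt A k g)) →ₗ[k] k :=
    Matrix.entryLinearMap k k ij.1 ij.2 ∘ₗ C w ∘ₗ Submodule.subtype (Z ⊓ (adFixed ρ g).comap (evalAt A k g))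
  refine finrank_map_le_of_line h.prime h.liesOver hZle hZB hg.mem hn
    (IsOrdGen.map_pow_eq_one hρ hg hp) hρ.ker (fun σ hσ => by
      obtain ⟨i, s, hs, rfl⟩ := IsOrdGen.decomp hρ hg hp σ hσ
      exact ⟨i, s, hs, hs.1, rfl⟩) (IsOrdGen.pow_mem_ker hρ hg) hφ L inferInstance
    ((Submodule.finrank_le _).trans (Module.finrank_self k).le) ?_
  intro c hLc hav
  have hzero : ∀ σ ∈ hρ.ker, C σ c.1 ij.1 ij.2 = 0 → evalAt A k σ c.1 = 0 := by
    intro σ hσ hσ0
    obtain ⟨d0, d1, d2⟩ := hdiag c σ hσ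
    refine cornerConj_injective (c := cc) ?_
    have htr := hCtr c.1 (hZle c.2.1) σ
    rw [Matrix.trace_fin_two, d0, zero_add] at htr
    have h01 : C σ c.1 0 1 = 0 ∧ C σ c.1 1 0 = 0 := by
      by_cases e : α = (m : k)
      · simp only [ij, e, if_true] at hσ0
        exact ⟨hσ0, d1 e⟩
      · simp only [ij, e, if_false] at hσ0
        exact ⟨d2 e, hσ0⟩
    ext i j
    fin_cases i <;> fin_cases j
    · exact d0
    · exact h01.1
    · exact h01.2
    · exact htr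
  have hF0 : C φ c.1 0 0 = 0 := by
    have e := congrArg (fun X => cornerConj cc X 0 0) hav
    simp only [map_zero, Matrix.zero_apply] at e
    rw [adAvg_apply, map_smul, map_sum, Matrix.smul_apply, Matrix.sum_apply] at e
    have hinv : ∀ i : ℕ,
        cornerConj cc (adMap ρ (g ^ i) (evalAt A k φ c.1)) 0 0 = C φ c.1 0 0 := by
      intro i
      induction i with
      | zero => rw [pow_zero, adMap_one]; rfl
      | succ i ih =>
        rw [pow_succ', adMap_mul_apply, hAdg, (diagonal_conj_entries α α⁻¹ _).1, ih]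
        field_simp
    rw [Finset.sum_congr rfl fun i _ => hinv i, Finset.sum_const, Finset.card_range,
      ← Nat.cast_smul_eq_nsmul k, smul_smul, inv_mul_cancel₀ hn, one_smul] at e
    exact e
  let S : Subgroup G_ℚ :=
    { carrier := {σ | σ ∈ hρ.ker ∧ evalAt A k σ c.1 = 0}
      one_mem' := ⟨one_mem _, evalAt_one (hZle c.2.1)⟩
      mul_mem' := fun {a b} ha hb => ⟨mul_mem ha.1 hb.1, by
        rw [evalAt_mul (hZle c.2.1) (MultRed.inertia_mem_decomposition ha.1.1)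
          (MultRed.inertia_mem_decomposition hb.1.1), ha.2, hb.2, map_zero, add_zero]⟩
      inv_mem' := fun {a} ha => ⟨inv_mem ha.1, by
        rw [evalAt_inv (hZle c.2.1) (MultRed.inertia_mem_decomposition ha.1.1), ha.2, map_zero,
          neg_zero]⟩ }
  have hSK := hgenw S (fun σ hσ => ⟨hρ.cutKer_le hσ, hσ.2.2 c.1 (hZle c.2.1)⟩)
    ⟨hw, hzero w hw hLc⟩ fun σ hσ _ => by
    have hτ := hρ.conj_mem_ker hφd hσ.1
    refine ⟨hτ, hzero _ hτ ?_⟩
    have hC : C (φ * σ * φ⁻¹) c.1 = C φ c.1 -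
        !![1, ρ (φ * σ * φ⁻¹) 0 1; 0, 1] * C φ c.1 * !![1, -ρ (φ * σ * φ⁻¹) 0 1; 0, 1] := by
      show cornerConj cc (evalAt A k (φ * σ * φ⁻¹) c.1) = _
      rw [evalAt_conj (hZle c.2.1) hφd (MultRed.inertia_mem_decomposition hσ.1.1), hσ.2, map_zero,
        add_zero, map_sub, hAdK _ hτ]
      rfl
    obtain ⟨u00, u01, u10⟩ := unipotent_conj_entries (ρ (φ * σ * φ⁻¹) 0 1) _ (hCtr c.1 (hZle c.2.1) φ)
    obtain ⟨d0, -, -⟩ := hdiag c _ hτ
    rw [hC, Matrix.sub_apply, u00, hF0] at d0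
    by_cases e : α = (m : k)
    · simp only [ij, e, if_true]
      rw [hC, Matrix.sub_apply, u01, hF0]
      linear_combination -ρ (φ * σ * φ⁻¹) 0 1 * d0
    · simp only [ij, e, if_false]
      rw [hC, Matrix.sub_apply, u10, sub_self]
  exact fun σ hσ => (hSK hσ).2

/-- **The tangent bound, ordinary shape, `p ≥ 5`.** -/
theorem IsOrdGen.finrank_adClasses_le {g : G_ℚ} (hρ : IsOrdShape A p ρ) (hg : IsOrdGen A p ρ g)
    (h : IsOver A p) (hp : 5 ≤ p) (hN : IsBoundKernel A p N ρ) :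
    FiniteDimensional k (adClasses A N ρ) ∧
      Module.finrank k (adClasses A N ρ) ≤ Module.finrank k (adInvariants A ρ) + 1 :=
  IsOrdGen.finrank_map_le hρ hg h (by omega) hN le_rfl
    (fun X _ => adCobound_mem_cocycles hN.trivial hN.continuous X) fun h3 => absurd h3 (by omega)

end Fermat.Agent.FlatJ0
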