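import Fermat.Agent.FlatJ0.Tangent.Defs

/-!
# Residual shapes at `p` and the hypotheses on the kernel
-/

noncomputable section

namespace Fermat.Agent.FlatJ0

local notation "Ω" => AlgebraicClosure ℚ
local notation "G_ℚ" => (AlgebraicClosure ℚ) ≃ₐ[ℚ] (AlgebraicClosure ℚ)

variable {k : Type*} [Field k]

/-- Ordinary shape: upper triangular on the decomposition group, on inertia the lower character
is trivial and the upper one has image of order exactly `p - 1`. -/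
structure IsOrdShape (A : ValuationSubring Ω) (p : ℕ)
    (ρ : G_ℚ →* Matrix (Fin 2) (Fin 2) k) : Prop where
  lower : ∀ σ ∈ A.decompositionSubgroup ℚ, ρ σ 1 0 = 0
  unram : ∀ σ ∈ A.inertiaSubgroupIn ℚ, ρ σ 1 1 = 1
  pow : ∀ σ ∈ A.inertiaSubgroupIn ℚ, ρ σ 0 0 ^ (p - 1) = 1
  gen : ∃ g ∈ A.inertiaSubgroupIn ℚ, ∀ n : ℕ, ρ g 0 0 ^ n = 1 → p - 1 ∣ n

/-- Supersingular shape: the image of inertia is cyclic of order exactly `p² - 1` and the
`(p + 1)`-st powers of its elements are scalars. -/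
structure IsSSShape (A : ValuationSubring Ω) (p : ℕ)
    (ρ : G_ℚ →* Matrix (Fin 2) (Fin 2) k) : Prop where
  cyclic : ∃ g ∈ A.inertiaSubgroupIn ℚ, ρ g ^ (p ^ 2 - 1) = 1 ∧
    (∀ n : ℕ, ρ g ^ n = 1 → p ^ 2 - 1 ∣ n) ∧ (∃ r : k, ρ g ^ (p + 1) = r • 1) ∧
    ∀ σ ∈ A.inertiaSubgroupIn ℚ, ∃ n : ℕ, ρ σ = ρ g ^ n

/-- Hypotheses on the subgroup of inertia. -/
structure IsBoundKernel (A : ValuationSubring Ω) (p : ℕ) (N : Subgroup G_ℚ)
    (ρ : G_ℚ →* Matrix (Fin 2) (Fin 2) k) : Prop where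
  le : N ≤ A.inertiaSubgroupIn ℚ
  normal : ∀ g ∈ A.inertiaSubgroupIn ℚ, ∀ n ∈ N, g * n * g⁻¹ ∈ N
  isOpen : IsOpenInInertia A N
  bound : ∀ γ : ℚ, (p : ℚ) / (p - 1) < γ → HasBound A p N γ
  trivial : ∀ n ∈ N, ρ n = 1
  continuous : ∃ F : IntermediateField ℚ Ω, FiniteDimensional ℚ F ∧
    ∀ σ ∈ F.fixingSubgroup, ρ σ = 1

end Fermat.Agent.FlatJ0
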