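import Fermat.Agent.FlatJ0.Tangent.Levels
import Fermat.Agent.FlatJ0.Tangent.Shapes
import Mathlib.RingTheory.RootsOfUnity.PrimitiveRoots

/-!
# Ordinary shape: every jump of the cut level equals `1`
-/

noncomputable section

namespace Fermat.Agent.FlatJ0

open EllLocal (resFun kummerRes)

local notation "Ω" => AlgebraicClosure ℚ
local notation "G_ℚ" => (AlgebraicClosure ℚ) ≃ₐ[ℚ] (AlgebraicClosure ℚ)

variable {k : Type*} [Field k] {A : ValuationSubring Ω} {p : ℕ} {N : Subgroup G_ℚ}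
  {ρ : G_ℚ →* Matrix (Fin 2) (Fin 2) k}

namespace IsOrdShape

variable (hρ : IsOrdShape A p ρ)
include hρ

lemma mul_upper {σ τ : G_ℚ} (hτ : τ ∈ A.decompositionSubgroup ℚ) :
    ρ (σ * τ) 0 0 = ρ σ 0 0 * ρ τ 0 0 := by
  rw [map_mul, Matrix.mul_apply, Fin.sum_univ_two, hρ.lower τ hτ, mul_zero, add_zero]

omit hρ in
lemma mul_corner {σ τ : G_ℚ} :
    ρ (σ * τ) 0 1 = ρ σ 0 0 * ρ τ 0 1 + ρ σ 0 1 * ρ τ 1 1 := by
  rw [map_mul, Matrix.mul_apply, Fin.sum_univ_two]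

/-- The part of inertia on which the upper character is trivial. -/
def ker : Subgroup G_ℚ where
  carrier := {σ | σ ∈ A.inertiaSubgroupIn ℚ ∧ ρ σ 0 0 = 1}
  one_mem' := ⟨one_mem _, by rw [map_one, Matrix.one_apply_eq]⟩
  mul_mem' {a b} ha hb := ⟨mul_mem ha.1 hb.1, by
    rw [hρ.mul_upper (MultRed.inertia_mem_decomposition hb.1), ha.2, hb.2, one_mul]⟩
  inv_mem' {a} ha := ⟨inv_mem ha.1, by
    have := hρ.mul_upper (σ := a⁻¹) (MultRed.inertia_mem_decomposition ha.1)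
    rwa [inv_mul_cancel, map_one, Matrix.one_apply_eq, ha.2, mul_one, eq_comm] at this⟩

lemma ker_le : hρ.ker ≤ A.inertiaSubgroupIn ℚ := fun _ h => h.1

lemma map_ker {σ : G_ℚ} (hσ : σ ∈ hρ.ker) : ρ σ = !![1, ρ σ 0 1; 0, 1] := by
  ext i j
  fin_cases i <;> fin_cases j <;>
    simp [hσ.2, hρ.lower σ (MultRed.inertia_mem_decomposition hσ.1), hρ.unram σ hσ.1]

lemma conj_mem_ker {φ : G_ℚ} (hφ : φ ∈ A.decompositionSubgroup ℚ) {σ : G_ℚ}
    (hσ : σ ∈ hρ.ker) : φ * σ * φ⁻¹ ∈ hρ.ker := by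
  refine ⟨TameInertia.inertia_normal_in_decomposition hφ hσ.1, ?_⟩
  rw [hρ.mul_upper (inv_mem hφ), hρ.mul_upper (MultRed.inertia_mem_decomposition hσ.1), hσ.2,
    mul_one, ← hρ.mul_upper (inv_mem hφ), mul_inv_cancel, map_one, Matrix.one_apply_eq]

lemma corner_pow {σ : G_ℚ} (hσ : σ ∈ hρ.ker) (m : ℕ) : ρ (σ ^ m) 0 1 = m * ρ σ 0 1 := by
  induction m with
  | zero => rw [pow_zero, map_one, Matrix.one_apply_ne (by decide), Nat.cast_zero, zero_mul]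
  | succ m ih =>
    rw [pow_succ, IsOrdShape.mul_corner, ((pow_mem hσ m : σ ^ m ∈ hρ.ker)).2, ih, hρ.unram σ hσ.1,
      Nat.cast_succ]
    ring

lemma map_pow_char [CharP k p] {σ : G_ℚ} (hσ : σ ∈ hρ.ker) : ρ (σ ^ p) = 1 := by
  rw [hρ.map_ker (pow_mem hσ p), hρ.corner_pow hσ, CharP.cast_eq_zero, zero_mul,
    Matrix.one_fin_two]

lemma cutKer_le : cutKer A N ρ ≤ hρ.ker := fun σ hσ => ⟨hσ.1, by rw [hσ.2.1, Matrix.one_apply_eq]⟩

end IsOrdShape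

/-- A generator of the upper character on inertia. -/
structure IsOrdGen (A : ValuationSubring Ω) (p : ℕ) (ρ : G_ℚ →* Matrix (Fin 2) (Fin 2) k)
    (g : G_ℚ) : Prop where
  mem : g ∈ A.inertiaSubgroupIn ℚ
  primitive : IsPrimitiveRoot (ρ g 0 0) (p - 1)

lemma IsOrdShape.exists_gen (hρ : IsOrdShape A p ρ) : ∃ g, IsOrdGen A p ρ g := by
  obtain ⟨g, hg, hex⟩ := hρ.gen
  exact ⟨g, hg, ⟨hρ.pow g hg, hex⟩⟩

variable {g : G_ℚ} (hρ : IsOrdShape A p ρ) (hg : IsOrdGen A p ρ g) (hp : 3 ≤ p)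
include hρ hg

lemma IsOrdGen.upper_pow (i : ℕ) : ρ (g ^ i) 0 0 = ρ g 0 0 ^ i := by
  induction i with
  | zero => rw [pow_zero, pow_zero, map_one, Matrix.one_apply_eq]
  | succ i ih => rw [pow_succ, pow_succ, hρ.mul_upper (MultRed.inertia_mem_decomposition hg.mem), ih]

include hp

lemma IsOrdGen.decomp : ∀ σ ∈ A.inertiaSubgroupIn ℚ,
    ∃ i : ℕ, ∃ s ∈ hρ.ker, σ = g ^ i * s := by
  intro σ hσ
  have : NeZero (p - 1) := ⟨by omega⟩
  obtain ⟨i, -, hi⟩ := hg.primitive.eq_pow_of_pow_eq_one (hρ.pow σ hσ)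
  refine ⟨i, (g ^ i)⁻¹ * σ, ⟨mul_mem (inv_mem (pow_mem hg.mem i)) hσ, ?_⟩,
    (mul_inv_cancel_left _ _).symm⟩
  have h1 := hρ.mul_upper (σ := (g ^ i)⁻¹) (MultRed.inertia_mem_decomposition hσ)
  have h2 := hρ.mul_upper (σ := (g ^ i)⁻¹)
    (MultRed.inertia_mem_decomposition (pow_mem hg.mem i))
  rw [inv_mul_cancel, map_one, Matrix.one_apply_eq, IsOrdGen.upper_pow hρ hg, hi] at h2
  rw [h1, ← h2]

omit hp in
lemma IsOrdGen.pow_mem_ker : g ^ (p - 1) ∈ hρ.ker :=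
  ⟨pow_mem hg.mem _, by rw [IsOrdGen.upper_pow hρ hg, hg.primitive.pow_eq_one]⟩

lemma IsOrdGen.map_pow_eq_one : ρ g ^ (p - 1) = 1 := by
  rw [← map_pow, hρ.map_ker (IsOrdGen.pow_mem_ker hρ hg)]
  have key : ∀ i, ρ (g ^ i) 0 1 = ρ g 0 1 * ∑ j ∈ Finset.range i, ρ g 0 0 ^ j := by
    intro i
    induction i with
    | zero => simp
    | succ i ih =>
      rw [pow_succ, IsOrdShape.mul_corner, IsOrdGen.upper_pow hρ hg, ih, hρ.unram g hg.mem,
        Finset.sum_range_succ]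
      ring
  rw [key, hg.primitive.geom_sum_eq_zero (by omega), mul_zero, Matrix.one_fin_two]

variable [CharP k p]

lemma IsOrdGen.order_eq (u : Unif A p (cutKer A N ρ)) {j : ℕ}
    (hj : kummerRes A u.π g ^ j = 1) : p - 1 ∣ j := by
  refine u.order_kummerRes hg.mem (s := 1)
    (fun hd => by have := Nat.le_of_dvd (by omega) hd; omega) (fun m => ?_) (fun i hi => ?_) hj
  · rw [pow_one]
    exact pow_char_mem_cutKer (pow_mem hg.mem _)
      (by rw [map_pow, pow_mul, IsOrdGen.map_pow_eq_one hρ hg hp, one_pow])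
  · refine hg.primitive.dvd_of_pow_eq_one i ?_
    rw [← IsOrdGen.upper_pow hρ hg, hi.2.1, Matrix.one_apply_eq]

/-- **Single jump, ordinary shape.** -/
theorem IsOrdGen.wild
    (u : Unif A p (cutKer A N ρ))
    (hb : ∀ y₀ ∈ u.roots, y₀ ≠ u.π →
      (∑ y ∈ u.roots.erase u.π, ord A p (y - u.π)) + ord A p (y₀ - u.π) ≤
        (p : ℚ) / (p - 1) + 2 / u.e) :
    ∀ σ ∈ hρ.ker, u.Wild 1 σ ∧ (u.theta 1 σ = 0 → σ ∈ cutKer A N ρ) := by
  classical
  have hI := hρ.ker_le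
  have hwild : ∀ τ ∈ hρ.ker, u.Wild 1 τ := by
    intro τ hτ
    refine u.wild_one_of_pow_mem hτ.1 (n := 2) ?_
    rw [sq, pow_mul]
    exact pow_char_mem_cutKer (pow_mem hτ.1 p) (hρ.map_pow_char hτ)
  refine fun σ hσ => ⟨hwild σ hσ, fun hθ => ?_⟩
  by_contra hσN
  have hw2 := (u.theta_eq_zero_iff hσ.1 (hwild σ hσ)).mp hθ
  have he : (0 : ℚ) < u.e := Nat.cast_pos.mpr u.e_pos
  have hpQ : (3 : ℚ) ≤ p := by exact_mod_cast hp
  set S := (u.subRoots hρ.ker).erase u.π with hS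
  set q := (u.subRoots hρ.ker).card with hq
  have hord : ∀ τ ∈ hρ.ker, ∀ l : ℕ, u.Wild l τ → τ u.π ≠ u.π →
      ((l : ℚ) + 1) / u.e ≤ ord A p (τ u.π - u.π) :=
    fun τ _ l hl hne => hl.resolve_left (sub_ne_zero.mpr hne)
  have hne : ∀ j ∈ Finset.Ico 1 p, (σ ^ j) u.π ≠ u.π := fun j hj e => by
    obtain ⟨h1, h2⟩ := Finset.mem_Ico.mp hj
    exact hσN (u.mem_of_pow_mem hσ.1 (hwild σ hσ)
      (fun hd => by have := Nat.le_of_dvd (by omega) hd; omega)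
      (u.mem_of_apply_eq (pow_mem hσ.1 j) e))
  set J := (Finset.Ico 1 p).image fun j => (σ ^ j) u.π with hJ
  have hinj : Set.InjOn (fun j => (σ ^ j) u.π) (Finset.Ico 1 p) := by
    have key : ∀ i j, 1 ≤ i → i < j → j < p → (σ ^ i) u.π ≠ (σ ^ j) u.π := fun i j h1 hij h2 e =>
      hne (j - i) (Finset.mem_Ico.mpr ⟨by omega, by omega⟩) ((σ ^ i).injective (by
        rw [← AlgEquiv.mul_apply, ← pow_add, Nat.add_sub_cancel' hij.le]
        exact e.symm))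
    intro i hi j hj e
    simp only [Finset.coe_Ico, Set.mem_Ico] at hi hj
    rcases lt_trichotomy i j with hlt | heq | hgt
    · exact absurd e (key i j hi.1 hlt hj.2)
    · exact heq
    · exact absurd e.symm (key j i hj.1 hgt hi.2)
  have hJS : J ⊆ S := by
    intro x hx
    obtain ⟨j, hj, rfl⟩ := Finset.mem_image.mp hx
    exact Finset.mem_erase.mpr ⟨hne j hj, (u.mem_subRoots hI).mpr ⟨_, pow_mem hσ j, rfl⟩⟩
  have hJcard : J.card = p - 1 := by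
    rw [hJ, Finset.card_image_of_injOn hinj, Nat.card_Ico]
  have h2 : ∀ x ∈ S, (2 : ℚ) / u.e ≤ ord A p (x - u.π) := by
    intro x hx
    obtain ⟨hxπ, hx⟩ := Finset.mem_erase.mp hx
    obtain ⟨τ, hτ, rfl⟩ := (u.mem_subRoots hI).mp hx
    have := hord τ hτ 1 (hwild τ hτ) hxπ
    norm_num at this
    exact this
  have h3 : ∀ x ∈ J, (3 : ℚ) / u.e ≤ ord A p (x - u.π) := by
    intro x hx
    obtain ⟨j, hj, rfl⟩ := Finset.mem_image.mp hx
    have := hord _ (pow_mem hσ j) 2 (u.wild_pow hσ.1 hw2 j) (hne j hj)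
    rwa [show (((2 : ℕ) : ℚ)) + 1 = 3 by norm_num] at this
  have hσJ : σ u.π ∈ J :=
    Finset.mem_image.mpr ⟨1, Finset.mem_Ico.mpr ⟨le_rfl, by omega⟩, by rw [pow_one]⟩
  have hsum : ((p : ℚ) - 1) * (1 / u.e) + ((q : ℚ) - 1) * (2 / u.e) ≤
      ∑ x ∈ S, ord A p (x - u.π) := by
    have e : ∑ x ∈ S, ord A p (x - u.π) =
        ∑ x ∈ S, (ord A p (x - u.π) - 2 / u.e) + (S.card : ℚ) * (2 / u.e) := by
      rw [Finset.sum_sub_distrib, Finset.sum_const, nsmul_eq_mul]; ring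
    rw [e]
    refine add_le_add ?_ (le_of_eq ?_)
    · refine le_trans ?_ (Finset.sum_le_sum_of_subset_of_nonneg hJS
        fun x hx _ => sub_nonneg.mpr (h2 x hx))
      refine le_trans (le_of_eq ?_)
        (Finset.card_nsmul_le_sum J _ (1 / (u.e : ℚ)) fun x hx => ?_)
      · rw [hJcard, nsmul_eq_mul, Nat.cast_sub (by omega), Nat.cast_one]
      · have := h3 x hx
        rw [le_sub_iff_add_le, ← add_div]
        norm_num
        exact this
    · rw [hS, Finset.card_erase_of_mem (u.π_mem_subRoots hI), ← hq, Nat.cast_sub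
        (Finset.card_pos.mpr ⟨_, u.π_mem_subRoots hI⟩), Nat.cast_one]
  have hs := u.sum_ge hI
  rw [← hq, ← hS] at hs
  have hb' := hb (σ u.π) (u.mem_roots.mpr ⟨σ, hσ.1, rfl⟩) (Finset.ne_of_mem_erase (hJS hσJ))
  have h3' := h3 _ hσJ
  have hle : (u.e : ℚ) ≤ ((p : ℚ) - 1) * q := by
    have := (Nat.cast_le (α := ℚ)).mpr
      (u.e_le_mul_card hI (by omega) (IsOrdGen.pow_mem_ker hρ hg) (IsOrdGen.decomp hρ hg hp))
    rw [← hq, Nat.cast_mul, Nat.cast_sub (by omega), Nat.cast_one] at this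
    exact this
  have key : ((u.e : ℚ) - q) / u.e + (((p : ℚ) - 1) * (1 / u.e) + ((q : ℚ) - 1) * (2 / u.e)) +
      3 / u.e ≤ (p : ℚ) / (p - 1) + 2 / u.e := by linarith
  have e1 : ((u.e : ℚ) - q) / u.e + (((p : ℚ) - 1) * (1 / u.e) + ((q : ℚ) - 1) * (2 / u.e)) +
      3 / u.e = ((u.e : ℚ) + q + p) / u.e := by
    field_simp; ring
  have e2 : (p : ℚ) / (p - 1) + 2 / u.e = ((u.e : ℚ) + u.e / ((p : ℚ) - 1) + 2) / u.e := by
    have : (p : ℚ) - 1 ≠ 0 := by linarith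
    field_simp; ring
  rw [e1, e2, div_le_div_iff_of_pos_right he] at key
  have : (u.e : ℚ) / ((p : ℚ) - 1) ≤ q := by rw [div_le_iff₀ (by linarith)]; linarith
  linarith

end Fermat.Agent.FlatJ0
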