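import Fermat.Agent.FlatJ0.Tangent.Levels
import Fermat.Agent.FlatJ0.Tangent.Shapes
import Mathlib.LinearAlgebra.Semisimple
import Mathlib.Algebra.Module.ZMod

/-!
# Supersingular shape: every jump of the cut level equals `p - 1`

Jumps are multiples of `p - 1` (the central part of inertia commutes with the wild part); a
complement, stable under the tame generator, of the deepest step gives a quotient with a single
jump, which the ramification bound keeps below `2 (p - 1)`.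
-/

noncomputable section

namespace Fermat.Agent.FlatJ0

open EllLocal (resFun kummerRes)

local notation "Ω" => AlgebraicClosure ℚ
local notation "G_ℚ" => (AlgebraicClosure ℚ) ≃ₐ[ℚ] (AlgebraicClosure ℚ)

/-- An operator of order prime to `p` on an `𝔽_p`-space stabilises a complement of any stable
subgroup. -/
lemma exists_stable_compl {V : Type*} [AddCommGroup V] {p : ℕ} [Fact p.Prime]
    (hV : ∀ x : V, p • x = 0) (S : V →+ V) {n : ℕ} (hn : ¬ p ∣ n) (hS : ∀ x, S^[n] x = x)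
    (U : AddSubgroup V) (hU : ∀ x ∈ U, S x ∈ U) :
    ∃ C : AddSubgroup V, (∀ x ∈ C, S x ∈ C) ∧ (∀ x, ∃ u ∈ U, ∃ c ∈ C, u + c = x) ∧
      ∀ x ∈ U, x ∈ C → x = 0 := by
  have hmod : Module (ZMod p) V := AddCommGroup.zmodModule hV
  let T : Module.End (ZMod p) V := S.toZModLinearMap p
  have hT : ∀ x, T x = S x := fun _ => rfl
  have hn' : (n : ZMod p) ≠ 0 := fun e => hn ((ZMod.natCast_eq_zero_iff n p).mp e)
  have hss : T.IsSemisimple := by
    refine Module.End.isSemisimple_of_squarefree_aeval_eq_zero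
      (p := Polynomial.X ^ n - Polynomial.C 1)
      (Polynomial.separable_X_pow_sub_C (1 : ZMod p) hn' one_ne_zero).squarefree ?_
    rw [map_sub, map_pow, Polynomial.aeval_X, Polynomial.aeval_C, map_one, sub_eq_zero]
    refine LinearMap.ext fun x => ?_
    rw [Module.End.coe_pow, Module.End.one_apply]
    exact hS x
  obtain ⟨C, hC, hcompl⟩ :=
    Module.End.isSemisimple_iff.mp hss (AddSubgroup.toZModSubmodule p U) (fun x hx => hU x hx)
  refine ⟨C.toAddSubgroup, fun x hx => hC hx, fun x => ?_, fun x hxU hxC => ?_⟩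
  · obtain ⟨u, hu, c, hc, e⟩ :=
      Submodule.mem_sup.mp (hcompl.sup_eq_top ▸ (Submodule.mem_top : x ∈ (⊤ : Submodule (ZMod p) V)))
    exact ⟨u, hu, c, hc, e⟩
  · exact (Submodule.mem_bot _).mp (hcompl.inf_eq_bot ▸ Submodule.mem_inf.mpr ⟨hxU, hxC⟩)

variable {k : Type*} [Field k] {A : ValuationSubring Ω} {p : ℕ} {N : Subgroup G_ℚ}
  {ρ : G_ℚ →* Matrix (Fin 2) (Fin 2) k}

/-- The inertia elements killed by `ρ`. -/
def rhoKer (A : ValuationSubring Ω) (ρ : G_ℚ →* Matrix (Fin 2) (Fin 2) k) : Subgroup G_ℚ where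
  carrier := {σ | σ ∈ A.inertiaSubgroupIn ℚ ∧ ρ σ = 1}
  one_mem' := ⟨one_mem _, map_one ρ⟩
  mul_mem' {a b} ha hb := ⟨mul_mem ha.1 hb.1, by rw [map_mul, ha.2, hb.2, one_mul]⟩
  inv_mem' {a} ha := ⟨inv_mem ha.1, map_inv_eq_one ha.2⟩

lemma rhoKer_le : rhoKer A ρ ≤ A.inertiaSubgroupIn ℚ := fun _ h => h.1

lemma cutKer_le_rhoKer : cutKer A N ρ ≤ rhoKer A ρ := fun _ h => ⟨h.1, h.2.1⟩

lemma conj_mem_rhoKer {φ : G_ℚ} (hφ : φ ∈ A.decompositionSubgroup ℚ) {σ : G_ℚ}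
    (hσ : σ ∈ rhoKer A ρ) : φ * σ * φ⁻¹ ∈ rhoKer A ρ :=
  ⟨TameInertia.inertia_normal_in_decomposition hφ hσ.1, map_conj_eq_one hσ.2⟩

/-- A tame generator of the supersingular shape. -/
structure IsSSGen (A : ValuationSubring Ω) (p : ℕ) (ρ : G_ℚ →* Matrix (Fin 2) (Fin 2) k)
    (g : G_ℚ) : Prop where
  mem : g ∈ A.inertiaSubgroupIn ℚ
  pow : ρ g ^ (p ^ 2 - 1) = 1
  exact' : ∀ n : ℕ, ρ g ^ n = 1 → p ^ 2 - 1 ∣ n
  scalar : ∃ r : k, ρ g ^ (p + 1) = r • 1
  gen : ∀ σ ∈ A.inertiaSubgroupIn ℚ, ∃ n : ℕ, ρ σ = ρ g ^ n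

variable {g : G_ℚ}

lemma IsSSShape.exists_gen (hρ : IsSSShape A p ρ) : ∃ g, IsSSGen A p ρ g := by
  obtain ⟨g, h1, h2, h3, h4, h5⟩ := hρ.cyclic
  exact ⟨g, h1, h2, h3, h4, h5⟩

lemma IsSSGen.decomp (hg : IsSSGen A p ρ g) : ∀ σ ∈ A.inertiaSubgroupIn ℚ,
    ∃ i : ℕ, ∃ s ∈ rhoKer A ρ, σ = g ^ i * s := by
  intro σ hσ
  obtain ⟨i, hi⟩ := hg.gen σ hσ
  refine ⟨i, (g ^ i)⁻¹ * σ, ⟨mul_mem (inv_mem (pow_mem hg.mem i)) hσ, ?_⟩,
    (mul_inv_cancel_left _ _).symm⟩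
  rw [map_mul, hi, ← map_pow, ← map_mul, inv_mul_cancel, map_one]

lemma IsSSGen.pow_mem_rhoKer (hg : IsSSGen A p ρ g) : g ^ (p ^ 2 - 1) ∈ rhoKer A ρ :=
  ⟨pow_mem hg.mem _, by rw [map_pow, hg.pow]⟩

lemma IsSSGen.adMap_central (hg : IsSSGen A p ρ g) (X : Matrix (Fin 2) (Fin 2) k) :
    adMap ρ (g ^ (p + 1)) X = X := by
  obtain ⟨r, hr⟩ := hg.scalar
  rw [adMap_eq_self_iff, map_pow, hr, smul_mul_assoc, one_mul, mul_smul_comm, mul_one]

lemma not_dvd_sq_sub_one (hp : p.Prime) : ¬ p ∣ p ^ 2 - 1 := fun hd => by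
  have h2 := Nat.dvd_sub (dvd_pow_self p two_ne_zero) hd
  have : p ^ 2 - (p ^ 2 - 1) = 1 := Nat.sub_sub_self (Nat.one_le_pow _ _ hp.pos)
  rw [this] at h2
  exact hp.not_dvd_one h2

lemma eq_of_ss_bound {p L q e : ℕ} (hp : 3 ≤ p) (hdvd : p - 1 ∣ L) (hL : 1 ≤ L) (hq : 2 ≤ q)
    (he : 0 < e) (heq : (e : ℚ) ≤ ((p : ℚ) ^ 2 - 1) * q)
    (hb : ((e : ℚ) - q) / e + ((q : ℚ) - 1) * (((L : ℚ) + 1) / e) + ((L : ℚ) + 1) / e ≤
      (p : ℚ) / (p - 1) + 2 / e) (h4 : p ≠ 4) : L = p - 1 ∨ (p = 3 ∧ L = 4) := by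
  obtain ⟨j, rfl⟩ := hdvd
  rcases j with _ | _ | j
  · rw [mul_zero] at hL; omega
  · exact Or.inl (by rw [Nat.zero_add, mul_one])
  by_cases h3 : p = 3 ∧ j = 0
  · exact Or.inr ⟨h3.1, by rw [h3.1, h3.2]⟩
  exfalso
  have hp' : (3 : ℚ) ≤ p := by exact_mod_cast hp
  have hq' : (2 : ℚ) ≤ q := by exact_mod_cast hq
  have he' : (0 : ℚ) < e := Nat.cast_pos.mpr he
  have hl : (p : ℚ) + 3 ≤ (((p - 1) * (j + 1 + 1) : ℕ) : ℚ) := by
    have : p + 3 ≤ (p - 1) * (j + 1 + 1) := by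
      rcases Nat.eq_zero_or_pos j with rfl | hj
      · omega
      · calc p + 3 ≤ (p - 1) * 3 := by omega
          _ ≤ (p - 1) * (j + 1 + 1) := Nat.mul_le_mul_left _ (by omega)
    exact_mod_cast this
  generalize (((p - 1) * (j + 1 + 1) : ℕ) : ℚ) = l at hl hb
  have e1 : ((e : ℚ) - q) / e + ((q : ℚ) - 1) * ((l + 1) / e) + (l + 1) / e =
      ((e : ℚ) + q * l) / e := by
    field_simp; ring
  have e2 : (p : ℚ) / (p - 1) + 2 / e = ((e : ℚ) + e / ((p : ℚ) - 1) + 2) / e := by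
    have : (p : ℚ) - 1 ≠ 0 := by linarith
    field_simp; ring
  rw [e1, e2, div_le_div_iff_of_pos_right he'] at hb
  have h3 : (e : ℚ) / ((p : ℚ) - 1) ≤ ((p : ℚ) + 1) * q := by
    rw [div_le_iff₀ (by linarith)]; nlinarith
  nlinarith

variable [CharP k p] {M : Subgroup G_ℚ}

/-- The tame character of `g` at any intermediate level has order exactly `p² - 1`. -/
lemma IsSSGen.order_eq (h : IsOver A p) (hg : IsSSGen A p ρ g) (hNM : cutKer A N ρ ≤ M)
    (hMK : M ≤ rhoKer A ρ) (u : Unif A p M) {j : ℕ} (hj : kummerRes A u.π g ^ j = 1) :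
    p ^ 2 - 1 ∣ j := by
  refine u.order_kummerRes hg.mem (s := 1) (not_dvd_sq_sub_one h.prime) (fun m => ?_)
    (fun i hi => hg.exact' i (by rw [← map_pow]; exact (hMK hi).2)) hj
  rw [pow_one]
  exact hNM (pow_char_mem_cutKer (pow_mem hg.mem _)
    (by rw [map_pow, pow_mul, hg.pow, one_pow]))

/-- The alternating sum of the first four translates of a trace zero matrix vanishes. -/
lemma adMap_alternating (h2 : (2 : k) ≠ 0) {g : G_ℚ} (hscal : ∃ r : k, ρ g ^ 4 = r • 1)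
    (hnot : ∀ r : k, ρ g ^ 2 ≠ r • 1) {X : Matrix (Fin 2) (Fin 2) k} (hX : X.trace = 0) :
    adMap ρ (g ^ 3) X - adMap ρ (g ^ 2) X + adMap ρ g X - X = 0 := by
  obtain ⟨r, hr⟩ := hscal
  have hcentral : adMap ρ (g ^ 4) X = X := by
    rw [adMap_eq_self_iff, map_pow, hr, smul_mul_assoc, one_mul, mul_smul_comm, mul_one]
  set t := (ρ g).trace with ht
  set v := adMap ρ (g ^ 3) X - adMap ρ (g ^ 2) X + adMap ρ g X - X with hv
  have hDv : adMap ρ g v = -v := by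
    rw [hv]
    simp only [map_sub, map_add, ← adMap_mul_apply, ← pow_succ', ← sq]
    rw [show (3 + 1 : ℕ) = 4 from rfl, show (2 + 1 : ℕ) = 3 from rfl, hcentral]
    abel
  have hanti : ρ g * v + v * ρ g = 0 := by
    have e := congrArg (· * ρ g) hDv
    simp only [adMap_apply, mul_assoc, neg_mul] at e
    rw [← map_mul, inv_mul_cancel, map_one, mul_one] at e
    rw [e, neg_add_cancel]
  have hvtr : v 1 1 = -v 0 0 := by
    have : v.trace = 0 := by
      simp only [hv, Matrix.trace_sub, Matrix.trace_add, trace_adMap, hX, sub_zero, add_zero]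
    rw [Matrix.trace_fin_two] at this
    linear_combination this
  have ht0 : t ≠ 0 := fun h0 => by
    refine hnot (-(ρ g).det) ?_
    rw [ht, Matrix.trace_fin_two] at h0
    have h11 : ρ g 1 1 = -ρ g 0 0 := by linear_combination h0
    rw [sq, Matrix.det_fin_two]
    ext i j
    fin_cases i <;> fin_cases j <;> simp [Matrix.mul_apply, Fin.sum_univ_two, h11] <;> ring
  have e00 := congrFun (congrFun hanti 0) 0
  have e01 := congrFun (congrFun hanti 0) 1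
  have e10 := congrFun (congrFun hanti 1) 0
  have e11 := congrFun (congrFun hanti 1) 1
  simp only [Matrix.add_apply, Matrix.mul_apply, Fin.sum_univ_two, Matrix.zero_apply, hvtr]
    at e00 e01 e10 e11
  rw [ht, Matrix.trace_fin_two] at ht0
  have h01 : v 0 1 = 0 :=
    (mul_eq_zero.mp (show (ρ g 0 0 + ρ g 1 1) * v 0 1 = 0 by linear_combination e01)).resolve_left
      ht0
  have h10 : v 1 0 = 0 :=
    (mul_eq_zero.mp (show (ρ g 0 0 + ρ g 1 1) * v 1 0 = 0 by linear_combination e10)).resolve_left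
      ht0
  have h00 : v 0 0 = 0 := by
    have ha : 2 * (ρ g 0 0 * v 0 0) = 0 := by
      rw [h01, h10] at e00; linear_combination e00
    have hd : 2 * (ρ g 1 1 * v 0 0) = 0 := by
      rw [h01, h10] at e11; linear_combination -e11
    refine (mul_eq_zero.mp (show 2 * ((ρ g 0 0 + ρ g 1 1) * v 0 0) = 0 by
      linear_combination ha + hd)).resolve_left h2 |> fun h => (mul_eq_zero.mp h).resolve_left ht0
  ext i j
  fin_cases i <;> fin_cases j <;> simp [h00, h01, h10, hvtr]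

/-- Levels are multiples of `p - 1`, and not `4` for `p = 3`. -/
lemma IsSSGen.exists_level (h : IsOver A p) (hp : 3 ≤ p) (hg : IsSSGen A p ρ g)
    (hdet : p = 3 → (ρ g).det ^ 2 = 1)
    (hNM : cutKer A N ρ ≤ M) (hMK : M ≤ rhoKer A ρ) (u : Unif A p M) {τ : G_ℚ}
    (hτ : τ ∈ rhoKer A ρ) (hτM : τ ∉ M) :
    ∃ L : ℕ, p - 1 ∣ L ∧ 1 ≤ L ∧ (p = 3 → L ≠ 4) ∧
      ord A p (τ u.π - u.π) = ((L : ℚ) + 1) / u.e := by
  have hw : u.Wild 1 τ := by
    refine u.wild_one_of_pow_mem hτ.1 (n := 1) ?_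
    rw [pow_one]
    exact hNM (pow_char_mem_cutKer hτ.1 hτ.2)
  obtain ⟨L, hL, hord, hwL, hθ⟩ := u.exists_level hτ.1 hτM hw
  refine ⟨L, ?_, hL, ?_, hord⟩
  swap
  · intro h3 hL4
    subst hL4
    have : CharP (IsLocalRing.ResidueField A) p := EllLocal.charP_kA h.prime h.liesOver
    have hnot : ∀ r : k, ρ g ^ 2 ≠ r • 1 := fun r hr => by
      have hd := hdet h3
      rw [← Matrix.det_pow, hr, Matrix.det_smul, Fintype.card_fin, Matrix.det_one, mul_one] at hd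
      have := hg.exact' 4 (by rw [show 4 = 2 + 2 from rfl, pow_add, hr, smul_mul_assoc, one_mul,
        smul_smul, ← sq, hd, one_smul])
      rw [h3] at this
      exact absurd (Nat.le_of_dvd (by norm_num) this) (by norm_num)
    have h2 : (2 : k) ≠ 0 := fun e => by
      have := Nat.le_of_dvd two_pos ((CharP.cast_eq_zero_iff k p 2).mp (by simpa using e))
      omega
    have hscal : ∃ r : k, ρ g ^ 4 = r • 1 := by
      obtain ⟨r, hr⟩ := hg.scalar
      rw [h3] at hr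
      exact ⟨r, hr⟩
    have hgd := MultRed.inertia_mem_decomposition hg.mem
    have hτd := MultRed.inertia_mem_decomposition hτ.1
    have hgi : ∀ i : ℕ, g ^ i ∈ A.decompositionSubgroup ℚ := fun i => pow_mem hgd i
    let T : ℕ → G_ℚ := fun i => g ^ i * τ * (g ^ i)⁻¹
    have hT : ∀ i, T i ∈ rhoKer A ρ := fun i => conj_mem_rhoKer (hgi i) hτ
    have hTw : ∀ i, u.Wild 4 (T i) ∧
        u.theta 4 (T i) = (kummerRes A u.π g ^ 4) ^ i * u.theta 4 τ := fun i => by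
      obtain ⟨h1, h2'⟩ := u.theta_conj_inertia (pow_mem hg.mem i) hτ.1 hwL
      refine ⟨h1, ?_⟩
      rw [h2', u.kummerRes_pow hg.mem, ← pow_mul, ← pow_mul, mul_comm i]
    -- `T 3 * T 1` and `T 2 * T 0` agree modulo the level
    have hmem : (T 2 * T 0)⁻¹ * (T 3 * T 1) ∈ cutKer A N ρ := by
      have hin : (T 2 * T 0)⁻¹ * (T 3 * T 1) ∈ rhoKer A ρ :=
        mul_mem (inv_mem (mul_mem (hT 2) (hT 0))) (mul_mem (hT 3) (hT 1))
      refine ⟨hin.1, hin.2, fun c hc => ?_⟩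
      have hd := fun i => MultRed.inertia_mem_decomposition (hT i).1
      have e : ∀ i, evalAt A k (T i) c = adMap ρ (g ^ i) (evalAt A k τ c) := fun i =>
        evalAt_conj_of_eq_one hc (hgi i) hτd hτ.2
      rw [evalAt_mul hc (inv_mem (mul_mem (hd 2) (hd 0))) (mul_mem (hd 3) (hd 1)),
        adMap_of_eq_one (map_inv_eq_one (mul_mem (hT 2) (hT 0)).2),
        evalAt_inv hc (mul_mem (hd 2) (hd 0)),
        adMap_of_eq_one (map_inv_eq_one (mul_mem (hT 2) (hT 0)).2),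
        evalAt_mul hc (hd 2) (hd 0), evalAt_mul hc (hd 3) (hd 1),
        adMap_of_eq_one (hT 2).2, adMap_of_eq_one (hT 3).2, e 0, e 1, e 2, e 3, pow_zero,
        adMap_one, pow_one]
      rw [← adMap_alternating h2 hscal hnot (trace_evalAt hc τ)]
      abel
    have hμ := hNM hmem
    have h20 := u.wild_mul (hT 2).1 (hTw 2).1 (hTw 0).1
    have e := u.theta_mul (by norm_num : 1 ≤ 4) (mul_mem (hT 2).1 (hT 0).1) h20 (u.wild_of_mem hμ)
    rw [mul_inv_cancel_left, u.theta_of_mem hμ, add_zero,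
      u.theta_mul (by norm_num : 1 ≤ 4) (hT 3).1 (hTw 3).1 (hTw 1).1,
      u.theta_mul (by norm_num : 1 ≤ 4) (hT 2).1 (hTw 2).1 (hTw 0).1, (hTw 0).2, (hTw 1).2,
      (hTw 2).2, (hTw 3).2] at e
    set a := kummerRes A u.π g ^ 4 with ha
    have hfac : (a - 1) * (a ^ 2 + 1) = 0 :=
      (mul_eq_zero.mp (show (a - 1) * (a ^ 2 + 1) * u.theta 4 τ = 0 by
        linear_combination e)).resolve_right hθ
    have hord8 := fun j hj => hg.order_eq h hNM hMK u (j := j) hj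
    have ha8 : a ^ 2 = 1 := by
      rw [ha, ← pow_mul, show 4 * 2 = p ^ 2 - 1 by rw [h3]; norm_num,
        ← u.kummerRes_pow hg.mem, ← u.wild_one_iff (pow_mem hg.mem _)]
      refine u.wild_one_of_pow_mem (pow_mem hg.mem _) (n := 1) ?_
      rw [pow_one]
      exact hNM (pow_char_mem_cutKer (pow_mem hg.mem _) (by rw [map_pow, hg.pow]))
    have ha1 : a = 1 := by
      refine sub_eq_zero.mp ((mul_eq_zero.mp hfac).resolve_right ?_)
      rw [ha8]
      intro e2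
      have := Nat.le_of_dvd two_pos ((CharP.cast_eq_zero_iff (IsLocalRing.ResidueField A) p 2).mp
        (by push_cast; linear_combination e2))
      omega
    have := Nat.le_of_dvd (by norm_num) (hord8 4 ha1)
    rw [h3] at this
    norm_num at this
  have hz : g ^ (p + 1) ∈ A.inertiaSubgroupIn ℚ := pow_mem hg.mem _
  refine u.dvd_level hz hτ.1 (hNM ?_) (fun j hj => ?_) hL hwL hθ
  · have hd := MultRed.inertia_mem_decomposition hτ.1
    have hc := conj_mem_rhoKer (MultRed.inertia_mem_decomposition hz) hτ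
    refine ⟨mul_mem (inv_mem hτ.1) hc.1, by rw [map_mul, map_inv_eq_one hτ.2, hc.2, one_mul],
      fun c hc' => ?_⟩
    rw [evalAt_mul hc' (inv_mem hd) (MultRed.inertia_mem_decomposition hc.1), evalAt_inv hc' hd,
      evalAt_conj_of_eq_one hc' (MultRed.inertia_mem_decomposition hz) hd hτ.2, hg.adMap_central,
      neg_add_cancel]
  · rw [u.kummerRes_pow hg.mem, ← pow_mul] at hj
    have := hg.order_eq h hNM hMK u hj
    have e : p ^ 2 - 1 = (p + 1) * (p - 1) := by simpa using Nat.sq_sub_sq p 1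
    rw [e] at this
    exact Nat.dvd_of_mul_dvd_mul_left (by omega) this

/-- **Single jump.** -/
theorem IsSSGen.wild (h : IsOver A p) (hp : 3 ≤ p) (hN : IsBoundKernel A p N ρ)
    (hg : IsSSGen A p ρ g) (hdet : p = 3 → (ρ g).det ^ 2 = 1) (u : Unif A p (cutKer A N ρ)) :
    ∀ σ ∈ rhoKer A ρ, u.Wild (p - 1) σ ∧ (u.theta (p - 1) σ = 0 → σ ∈ cutKer A N ρ) := by
  classical
  have hI := rhoKer_le (A := A) (ρ := ρ)
  have he : (0 : ℚ) < u.e := Nat.cast_pos.mpr u.e_pos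
  have hpQ : (3 : ℚ) ≤ p := by exact_mod_cast hp
  -- it suffices that every value outside the cut level is `p / e`
  suffices key : ∀ σ ∈ rhoKer A ρ, σ ∉ cutKer A N ρ → ord A p (σ u.π - u.π) = (p : ℚ) / u.e by
    intro σ hσ
    by_cases hσN : σ ∈ cutKer A N ρ
    · exact ⟨u.wild_of_mem hσN, fun _ => hσN⟩
    have hp1 : ((p - 1 : ℕ) : ℚ) + 1 = p := by
      rw [Nat.cast_sub (by omega)]; push_cast; ring
    have hw : u.Wild (p - 1) σ := Or.inr (by rw [hp1, key σ hσ hσN])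
    refine ⟨hw, fun hθ => absurd ?_ hσN⟩
    have h2 := (u.theta_eq_zero_iff hσ.1 hw).mp hθ
    rcases h2 with h2 | h2
    · exact u.mem_of_apply_eq hσ.1 (sub_eq_zero.mp h2)
    · rw [key σ hσ hσN, div_le_div_iff_of_pos_right he] at h2
      push_cast at h2
      linarith
  by_contra hbad
  push Not at hbad
  obtain ⟨σ₁, hσ₁, hσ₁N, hne₁⟩ := hbad
  have hlow : ∀ τ ∈ rhoKer A ρ, τ ∉ cutKer A N ρ → (p : ℚ) / u.e ≤ ord A p (τ u.π - u.π) := by
    intro τ hτ hτN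
    obtain ⟨L, hdvd, hL, -, hord⟩ := hg.exists_level h hp hdet le_rfl cutKer_le_rhoKer u hτ hτN
    rw [hord, div_le_div_iff_of_pos_right he]
    have : p - 1 + 1 ≤ L + 1 := Nat.add_le_add_right (Nat.le_of_dvd (by omega) hdvd) 1
    rw [Nat.sub_add_cancel (by omega : 1 ≤ p)] at this
    exact_mod_cast this
  set W := (u.subRoots (rhoKer A ρ)).erase u.π with hW
  have hmemW : ∀ τ ∈ rhoKer A ρ, τ ∉ cutKer A N ρ → τ u.π ∈ W := fun τ hτ hτN =>
    Finset.mem_erase.mpr ⟨fun e => hτN (u.mem_of_apply_eq hτ.1 e),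
      (u.mem_subRoots hI).mpr ⟨τ, hτ, rfl⟩⟩
  obtain ⟨x₁, hx₁, hmax⟩ := W.exists_max_image (fun x => ord A p (x - u.π))
    ⟨_, hmemW σ₁ hσ₁ hσ₁N⟩
  set imax := ord A p (x₁ - u.π) with himax
  have hbig : (p : ℚ) / u.e < imax :=
    (lt_of_le_of_ne (hlow σ₁ hσ₁ hσ₁N) hne₁.symm).trans_le (hmax _ (hmemW σ₁ hσ₁ hσ₁N))
  -- the deepest step
  let T : Subgroup G_ℚ :=
    { carrier := {σ | σ ∈ rhoKer A ρ ∧ Near A p imax (σ u.π - u.π)}
      one_mem' := ⟨one_mem _, Or.inl (sub_self _)⟩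
      mul_mem' := fun {a b} ha hb => ⟨mul_mem ha.1 hb.1, by
        have e : (a * b) u.π - u.π = a (b u.π - u.π) + (a u.π - u.π) := by
          rw [AlgEquiv.mul_apply, map_sub]; ring
        rw [e]
        exact h.near_add ((h.near_apply (MultRed.inertia_mem_decomposition ha.1.1)).mpr hb.2) ha.2⟩
      inv_mem' := fun {a} ha => ⟨inv_mem ha.1, by
        have e : a⁻¹ u.π - u.π = -a⁻¹ (a u.π - u.π) := by
          rw [map_sub, ← AlgEquiv.mul_apply, inv_mul_cancel, AlgEquiv.one_apply, neg_sub]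
        rw [e]
        exact h.near_neg ((h.near_apply (MultRed.inertia_mem_decomposition
          (inv_mem ha.1.1))).mpr ha.2)⟩ }
  have hTconj : ∀ τ ∈ T, g * τ * g⁻¹ ∈ T := by
    intro τ hτ
    have hd := MultRed.inertia_mem_decomposition hg.mem
    refine ⟨conj_mem_rhoKer hd hτ.1, ?_⟩
    have e : (g * τ * g⁻¹) u.π - u.π = g (τ (g⁻¹ u.π) - g⁻¹ u.π) := by
      rw [map_sub, AlgEquiv.mul_apply, AlgEquiv.mul_apply,
        ← AlgEquiv.mul_apply g g⁻¹, mul_inv_cancel, AlgEquiv.one_apply]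
    rw [e, h.near_apply hd]
    exact u.near_apply_sub hτ.1.1 hτ.2
      (u.root_mem (u.mem_roots.mpr ⟨g⁻¹, inv_mem hg.mem, rfl⟩))
  -- embedding of the wild part by the cocycle values
  let V := ↥(adCocycles A N ρ) → Matrix (Fin 2) (Fin 2) k
  let emb : G_ℚ → V := fun σ c => evalAt A k σ c.1
  have emb_mul : ∀ σ ∈ rhoKer A ρ, ∀ τ ∈ rhoKer A ρ, emb (σ * τ) = emb σ + emb τ := by
    intro σ hσ τ hτ
    funext c
    show _ = evalAt A k σ c.1 + evalAt A k τ c.1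
    exact (evalAt_mul c.2 (MultRed.inertia_mem_decomposition hσ.1)
      (MultRed.inertia_mem_decomposition hτ.1)).trans (by rw [adMap_of_eq_one hσ.2])
  have emb_one : emb 1 = 0 := funext fun c => evalAt_one c.2
  have emb_inv : ∀ σ ∈ rhoKer A ρ, emb σ⁻¹ = -emb σ := fun σ hσ =>
    eq_neg_of_add_eq_zero_left (by rw [← emb_mul _ (inv_mem hσ) _ hσ, inv_mul_cancel, emb_one])
  have emb_conj : ∀ φ ∈ A.decompositionSubgroup ℚ, ∀ σ ∈ rhoKer A ρ,
      emb (φ * σ * φ⁻¹) = fun c => adMap ρ φ (emb σ c) := fun φ hφ σ hσ => funext fun c =>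
    evalAt_conj_of_eq_one c.2 hφ (MultRed.inertia_mem_decomposition hσ.1) hσ.2
  let U : AddSubgroup V :=
    { carrier := {v | ∃ σ ∈ T, emb σ = v}
      zero_mem' := ⟨1, one_mem T, emb_one⟩
      add_mem' := by
        rintro _ _ ⟨σ, hσ, rfl⟩ ⟨τ, hτ, rfl⟩
        exact ⟨σ * τ, mul_mem hσ hτ, emb_mul σ hσ.1 τ hτ.1⟩
      neg_mem' := by
        rintro _ ⟨σ, hσ, rfl⟩
        exact ⟨σ⁻¹, inv_mem hσ, emb_inv σ hσ.1⟩ }
  have : Fact p.Prime := ⟨h.prime⟩
  let S : V →+ V := (adMap ρ g).toAddMonoidHom.compLeft _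
  have hSit : ∀ (i : ℕ) (v : V), S^[i] v = fun c => adMap ρ (g ^ i) (v c) := by
    intro i
    induction i with
    | zero => intro v; funext c; simp [adMap_one]
    | succ i ih =>
      intro v
      rw [Function.iterate_succ_apply', ih]
      funext c
      rw [pow_succ', adMap_mul_apply]
      rfl
  obtain ⟨C, hCS, hCtop, hCbot⟩ := exists_stable_compl (p := p)
    (fun v : V => by
      funext c
      show p • v c = 0
      rw [← Nat.cast_smul_eq_nsmul k, CharP.cast_eq_zero, zero_smul])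
    S (not_dvd_sq_sub_one h.prime)
    (fun v => by
      rw [hSit]; funext c
      exact adMap_of_eq_one hg.pow_mem_rhoKer.2 _)
    U (by
      rintro _ ⟨σ, hσ, rfl⟩
      exact ⟨_, hTconj σ hσ, emb_conj g (MultRed.inertia_mem_decomposition hg.mem) σ hσ.1⟩)
  let M' : Subgroup G_ℚ :=
    { carrier := {σ | σ ∈ rhoKer A ρ ∧ emb σ ∈ C}
      one_mem' := ⟨one_mem _, emb_one ▸ zero_mem C⟩
      mul_mem' := fun {a b} ha hb =>
        ⟨mul_mem ha.1 hb.1, (emb_mul a ha.1 b hb.1).symm ▸ add_mem ha.2 hb.2⟩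
      inv_mem' := fun {a} ha => ⟨inv_mem ha.1, (emb_inv a ha.1).symm ▸ neg_mem ha.2⟩ }
  have hM'K : M' ≤ rhoKer A ρ := fun σ hσ => hσ.1
  have hNM' : cutKer A N ρ ≤ M' := fun σ hσ =>
    ⟨cutKer_le_rhoKer hσ, (show emb σ = 0 from funext fun c => hσ.2.2 c.1 c.2) ▸ zero_mem C⟩
  have hM'n : ∀ s ∈ A.inertiaSubgroupIn ℚ, ∀ n ∈ M', s * n * s⁻¹ ∈ M' := by
    intro s hs n hn
    refine ⟨conj_mem_rhoKer (MultRed.inertia_mem_decomposition hs) hn.1, ?_⟩
    rw [emb_conj s (MultRed.inertia_mem_decomposition hs) n hn.1]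
    obtain ⟨i, t, ht, rfl⟩ := hg.decomp s hs
    have e : (fun c => adMap ρ (g ^ i * t) (emb n c)) = S^[i] (emb n) := by
      rw [hSit]; funext c
      rw [adMap_mul_apply, adMap_of_eq_one ht.2]
    rw [e]
    exact Nat.rec (motive := fun i => S^[i] (emb n) ∈ C) hn.2
      (fun j ih => by rw [Function.iterate_succ_apply']; exact hCS _ ih) i
  obtain ⟨u', hb'⟩ := exists_level_bound h hN.le hN.normal hN.isOpen hN.bound
    (hM'K.trans hI) hM'n ((le_cutKer hN.le hN.trivial).trans hNM')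
  set S₀ := Unif.fibre u u' hNM' u'.π with hS₀
  set Vv := imax + ∑ x ∈ S₀.erase u.π, ord A p (x - u.π) with hVv
  have hπS : u.π ∈ S₀ := Unif.π_mem_fibre u u' hNM'
  have hfib : ∀ x ∈ S₀.erase u.π, ∃ τ ∈ M', τ ∉ cutKer A N ρ ∧ τ u.π = x := by
    intro x hx
    obtain ⟨hxπ, hx⟩ := Finset.mem_erase.mp hx
    obtain ⟨hx, hxp⟩ := (Unif.mem_fibre u u' hNM').mp hx
    obtain ⟨τ, hτ, rfl⟩ := u.mem_roots.mp hx
    rw [Unif.proj_apply u u' hNM' hτ] at hxp
    exact ⟨τ, u'.mem_of_apply_eq hτ hxp, fun e => hxπ (u.π_fix τ e), rfl⟩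
  have hTM : ∀ σ ∈ T, σ ∈ M' → σ ∈ cutKer A N ρ := fun σ hσ hσ' =>
    ⟨hσ.1.1, hσ.1.2, fun c hc =>
      congrFun (hCbot _ ⟨σ, hσ, rfl⟩ hσ'.2) ⟨c, hc⟩⟩
  have hval : ∀ σ ∈ T, σ ∉ cutKer A N ρ →
      σ u'.π ≠ u'.π ∧ ord A p (σ u'.π - u'.π) = Vv := by
    intro σ hσ hσN
    have hσI := hσ.1.1
    have hne : σ u'.π ≠ u'.π := fun e => hσN (hTM σ hσ (u'.mem_of_apply_eq hσI e))
    refine ⟨hne, ?_⟩
    have h0 : σ u.π - u.π ≠ 0 := fun e => hσN (u.mem_of_apply_eq hσI (sub_eq_zero.mp e))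
    have hσmax : ord A p (σ u.π - u.π) = imax :=
      le_antisymm (hmax _ (hmemW σ hσ.1 hσN)) (hσ.2.resolve_left h0)
    rw [Unif.ord_sub_eq_sum_fibre u u' hNM' (u'.mem_roots.mpr ⟨σ, hσI, rfl⟩) hne,
      Unif.sum_fibre_apply u u' hNM' _ hσI, ← Finset.add_sum_erase _ _ hπS, hσmax, hVv]
    refine congrArg (imax + ·) (Finset.sum_congr rfl fun x hx => ?_)
    obtain ⟨τ, hτM, hτN, rfl⟩ := hfib x hx
    have hτ0 : τ u.π - u.π ≠ 0 := fun e =>
      hτN (u.mem_of_apply_eq hτM.1.1 (sub_eq_zero.mp e))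
    have hlt : ord A p (τ u.π - u.π) < imax := not_le.mp fun hle =>
      hτN (hTM τ ⟨hτM.1, Or.inr hle⟩ hτM)
    have hd := MultRed.inertia_mem_decomposition hσI
    have e : σ (τ u.π) - u.π = σ (τ u.π - u.π) + (σ u.π - u.π) := by rw [map_sub]; ring
    rw [e, (h.ord_add_eq ((map_ne_zero σ).mpr hτ0) (γ := imax) (Or.inr hσmax.ge)
      (by rw [h.ord_apply hd]; exact hlt)).2, h.ord_apply hd]
  -- the deepest element
  obtain ⟨hx₁π, hx₁K⟩ := Finset.mem_erase.mp hx₁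
  obtain ⟨t₁, ht₁, rfl⟩ := (u.mem_subRoots hI).mp hx₁K
  have ht₁T : t₁ ∈ T := ⟨ht₁, Or.inr le_rfl⟩
  have ht₁N : t₁ ∉ cutKer A N ρ := fun e => hx₁π (u.π_fix _ e)
  obtain ⟨hne₁', hval₁⟩ := hval t₁ ht₁T ht₁N
  obtain ⟨L, hLdvd, hL1, hL4, hL⟩ := hg.exists_level h hp hdet hNM' hM'K u' ht₁
    (fun e => ht₁N (hTM t₁ ht₁T e))
  rw [hval₁] at hL
  set q := (u'.subRoots (rhoKer A ρ)).card with hq
  have hall : ∀ y ∈ (u'.subRoots (rhoKer A ρ)).erase u'.π, ord A p (y - u'.π) = Vv := by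
    intro y hy
    obtain ⟨hyπ, hy⟩ := Finset.mem_erase.mp hy
    obtain ⟨σ, hσ, rfl⟩ := (u'.mem_subRoots hI).mp hy
    obtain ⟨v, ⟨t, ht, rfl⟩, c, hc, e⟩ := hCtop (emb σ)
    have hmem : t⁻¹ * σ ∈ M' := by
      refine ⟨mul_mem (inv_mem ht.1) hσ, ?_⟩
      show emb (t⁻¹ * σ) ∈ C
      rw [emb_mul _ (inv_mem ht.1) _ hσ, emb_inv _ ht.1, ← e, neg_add_cancel_left]
      exact hc
    rw [u'.apply_eq_of_mem hmem] at hyπ ⊢
    exact (hval t ht fun e => hyπ (u'.π_fix t (hNM' e))).2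
  have hy₁ : t₁ u'.π ∈ u'.roots := u'.mem_roots.mpr ⟨t₁, ht₁.1, rfl⟩
  have hb := hb' _ hy₁ hne₁'
  have hs := u'.sum_ge hI
  rw [Finset.sum_congr rfl hall, Finset.sum_const, nsmul_eq_mul,
    Finset.card_erase_of_mem (u'.π_mem_subRoots hI), ← hq] at hs
  rw [hval₁] at hb
  have hq2 : 2 ≤ q := Finset.one_lt_card.mpr
    ⟨_, u'.π_mem_subRoots hI, _, (u'.mem_subRoots hI).mpr ⟨t₁, ht₁, rfl⟩, hne₁'.symm⟩
  have he' : (0 : ℚ) < u'.e := Nat.cast_pos.mpr u'.e_pos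
  have heq : (u'.e : ℚ) ≤ ((p : ℚ) ^ 2 - 1) * q := by
    have h1 : 1 ≤ p ^ 2 := Nat.one_le_pow _ _ h.prime.pos
    have := u'.e_le_mul_card hI (by have : 9 ≤ p ^ 2 := by nlinarith
                                    omega) hg.pow_mem_rhoKer hg.decomp
    rw [← hq] at this
    have := (Nat.cast_le (α := ℚ)).mpr this
    rw [Nat.cast_mul, Nat.cast_sub h1] at this
    push_cast at this
    exact this
  -- the single jump of the quotient is `p - 1`
  have hLp : L = p - 1 := by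
    refine (eq_of_ss_bound (q := q) (e := u'.e) (by omega) hLdvd hL1 hq2 u'.e_pos heq ?_
      (fun e => by have := h.prime; rw [e] at this; norm_num at this)).resolve_right
      fun hh => hL4 hh.1 hh.2
    rw [hL, Nat.cast_sub (by omega : 1 ≤ q), Nat.cast_one] at hs
    rw [hL] at hb
    linarith
  subst hLp
  rw [Nat.cast_sub (by omega : 1 ≤ p), Nat.cast_one, sub_add_cancel] at hL
  -- but the fibre sum exceeds `p / e'`
  have hm : (u.e : ℚ) = u'.e * S₀.card := by exact_mod_cast Unif.e_eq_mul u u' hNM'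
  have hsum : ((S₀.erase u.π).card : ℚ) * ((p : ℚ) / u.e) ≤
      ∑ x ∈ S₀.erase u.π, ord A p (x - u.π) := by
    rw [← nsmul_eq_mul]
    refine Finset.card_nsmul_le_sum _ _ _ fun x hx => ?_
    obtain ⟨τ, hτM, hτN, rfl⟩ := hfib x hx
    exact hlow τ hτM.1 hτN
  have hcard : (S₀.card : ℚ) = (S₀.erase u.π).card + 1 := by
    exact_mod_cast (Finset.card_erase_add_one hπS).symm
  have e1 : (p : ℚ) / u'.e = S₀.card * ((p : ℚ) / u.e) := by
    rw [hm]
    have : (0 : ℚ) < S₀.card := by exact_mod_cast Finset.card_pos.mpr ⟨_, hπS⟩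
    rw [mul_comm (u'.e : ℚ), ← mul_div_assoc, mul_div_mul_left _ _ this.ne']
  rw [hcard, add_mul, one_mul] at e1
  linarith

end Fermat.Agent.FlatJ0
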